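/-
S48lib / W1 / Diamond  (helper1)

Diamond operators on functions invariant under `Γ₁(N)` and on `CuspForm (Gamma1 N) k`.

* `IsG1Inv N k f` : `f ∣[k] γ = f` for all `γ ∈ Γ₁(N)`.
* `Gamma1` is the kernel of `Gamma0Map`, hence normal in `Γ₀(N)`; the slash by `γ ∈ Γ₀(N)` of a
  `Γ₁(N)`-invariant function only depends on `Gamma0Map N γ` (`slash_congr`).
* `exists_Gamma0Map_eq` : `Gamma0Map` is onto the units of `ZMod N`.
* `diamondFun k u f` (`u : (ZMod N)ˣ`) and its basic calculus;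
* `diamond k u : CuspForm (Gamma1 N) k →ₗ[ℂ] CuspForm (Gamma1 N) k`.
-/
import Mathlib
import Fermat.Agent.S16lib.LH.Cosets

set_option autoImplicit false

noncomputable section

namespace Fermat.Agent.S48lib.W1

open UpperHalfPlane CongruenceSubgroup Matrix.SpecialLinearGroup ModularForm
open scoped MatrixGroups ModularForm

variable {N : ℕ} {k : ℤ}

/-- `f` is invariant under `Γ₁(N)` in weight `k` -/
def IsG1Inv (N : ℕ) (k : ℤ) (f : ℍ → ℂ) : Prop :=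
  ∀ γ : SL(2, ℤ), γ ∈ Gamma1 N → f ∣[k] γ = f

theorem mem_Gamma1_iff_Gamma0Map {γ : SL(2, ℤ)} :
    γ ∈ Gamma1 N ↔ ∃ h : γ ∈ Gamma0 N, Gamma0Map N ⟨γ, h⟩ = 1 := by
  constructor
  · intro hγ
    have h0 : γ ∈ Gamma0 N := Gamma1_in_Gamma0 N hγ
    refine ⟨h0, ?_⟩
    have := (Gamma1_mem N γ).mp hγ
    simpa [Gamma0Map] using this.2.1
  · rintro ⟨h0, h1⟩
    have : (⟨γ, h0⟩ : Gamma0 N) ∈ Gamma1' N := h1
    rw [Gamma1_to_Gamma0_mem] at this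
    exact (Gamma1_mem N γ).mpr this

theorem Gamma0Map_mul_inv (γ : Gamma0 N) : Gamma0Map N γ * Gamma0Map N γ⁻¹ = 1 := by
  rw [← map_mul, mul_inv_cancel, map_one]

theorem Gamma0Map_inv_mul (γ : Gamma0 N) : Gamma0Map N γ⁻¹ * Gamma0Map N γ = 1 := by
  rw [← map_mul, inv_mul_cancel, map_one]

/-- the unit of `ZMod N` attached to an element of `Γ₀(N)` -/
def gamma0Unit (γ : Gamma0 N) : (ZMod N)ˣ :=
  ⟨Gamma0Map N γ, Gamma0Map N γ⁻¹, Gamma0Map_mul_inv γ, Gamma0Map_inv_mul γ⟩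

@[simp] theorem coe_gamma0Unit (γ : Gamma0 N) : (gamma0Unit γ : ZMod N) = Gamma0Map N γ := rfl

theorem gamma0Unit_mul (γ γ' : Gamma0 N) : gamma0Unit (γ * γ') = gamma0Unit γ * gamma0Unit γ' := by
  ext
  simp [map_mul]

theorem gamma0Unit_one : gamma0Unit (1 : Gamma0 N) = 1 := by
  ext
  simp

theorem gamma0Unit_inv (γ : Gamma0 N) : gamma0Unit γ⁻¹ = (gamma0Unit γ)⁻¹ := by
  rw [eq_inv_iff_mul_eq_one, ← gamma0Unit_mul, inv_mul_cancel, gamma0Unit_one]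

theorem mem_Gamma1_of_gamma0Unit_eq_one {γ : Gamma0 N} (h : gamma0Unit γ = 1) :
    (γ : SL(2, ℤ)) ∈ Gamma1 N :=
  mem_Gamma1_iff_Gamma0Map.mpr ⟨γ.2, by simpa using congrArg Units.val h⟩

theorem gamma0Unit_eq_one_of_mem_Gamma1 {γ : Gamma0 N} (h : (γ : SL(2, ℤ)) ∈ Gamma1 N) :
    gamma0Unit γ = 1 := by
  obtain ⟨h0, h1⟩ := mem_Gamma1_iff_Gamma0Map.mp h
  ext
  simpa using h1

/-- `Γ₁(N)` is normalised by `Γ₀(N)`. -/
theorem conj_mem_Gamma1 (γ : Gamma0 N) {γ₁ : SL(2, ℤ)} (h : γ₁ ∈ Gamma1 N) :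
    (γ : SL(2, ℤ)) * γ₁ * (γ : SL(2, ℤ))⁻¹ ∈ Gamma1 N := by
  have h0 : γ₁ ∈ Gamma0 N := Gamma1_in_Gamma0 N h
  have : gamma0Unit (γ * ⟨γ₁, h0⟩ * γ⁻¹) = 1 := by
    rw [gamma0Unit_mul, gamma0Unit_mul, gamma0Unit_inv,
      gamma0Unit_eq_one_of_mem_Gamma1 (γ := ⟨γ₁, h0⟩) h, mul_one, mul_inv_cancel]
  exact mem_Gamma1_of_gamma0Unit_eq_one this

/-- the slash by `γ ∈ Γ₀(N)` of a `Γ₁(N)`-invariant function only depends on the class of the
lower right entry modulo `N`. -/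
theorem IsG1Inv.slash_congr {f : ℍ → ℂ} (hf : IsG1Inv N k f) {γ γ' : Gamma0 N}
    (h : gamma0Unit γ = gamma0Unit γ') : f ∣[k] (γ : SL(2, ℤ)) = f ∣[k] (γ' : SL(2, ℤ)) := by
  have h1 : gamma0Unit (γ * γ'⁻¹) = 1 := by
    rw [gamma0Unit_mul, gamma0Unit_inv, h, mul_inv_cancel]
  have h2 := hf _ (mem_Gamma1_of_gamma0Unit_eq_one h1)
  have h3 : (γ : SL(2, ℤ)) = ((γ * γ'⁻¹ : Gamma0 N) : SL(2, ℤ)) * (γ' : SL(2, ℤ)) := by
    rw [← Subgroup.coe_mul, inv_mul_cancel_right]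
  conv_lhs => rw [h3, SlashAction.slash_mul, h2]

theorem IsG1Inv.slash {f : ℍ → ℂ} (hf : IsG1Inv N k f) (γ : Gamma0 N) :
    IsG1Inv N k (f ∣[k] (γ : SL(2, ℤ))) := by
  intro γ₁ hγ₁
  have h := conj_mem_Gamma1 γ hγ₁
  rw [← SlashAction.slash_mul]
  have h3 : (γ : SL(2, ℤ)) * γ₁ = ((γ : SL(2, ℤ)) * γ₁ * (γ : SL(2, ℤ))⁻¹) * (γ : SL(2, ℤ)) := by
    rw [inv_mul_cancel_right]
  rw [h3, SlashAction.slash_mul, hf _ h]

theorem IsG1Inv.slash_of_gamma0Unit_eq_one {f : ℍ → ℂ} (hf : IsG1Inv N k f) {γ : Gamma0 N}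
    (h : gamma0Unit γ = 1) : f ∣[k] (γ : SL(2, ℤ)) = f :=
  hf _ (mem_Gamma1_of_gamma0Unit_eq_one h)

theorem IsG1Inv.add {f g : ℍ → ℂ} (hf : IsG1Inv N k f) (hg : IsG1Inv N k g) :
    IsG1Inv N k (f + g) := fun γ hγ => by
  rw [SlashAction.add_slash, hf γ hγ, hg γ hγ]

theorem IsG1Inv.smul {f : ℍ → ℂ} (hf : IsG1Inv N k f) (c : ℂ) :
    IsG1Inv N k (c • f) := fun γ hγ => by
  rw [SL_smul_slash, hf γ hγ]

theorem IsG1Inv.neg {f : ℍ → ℂ} (hf : IsG1Inv N k f) : IsG1Inv N k (-f) := fun γ hγ => by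
  rw [SlashAction.neg_slash, hf γ hγ]

theorem IsG1Inv.sub {f g : ℍ → ℂ} (hf : IsG1Inv N k f) (hg : IsG1Inv N k g) :
    IsG1Inv N k (f - g) := by
  rw [sub_eq_add_neg]
  exact hf.add hg.neg

theorem isG1Inv_zero : IsG1Inv N k (0 : ℍ → ℂ) := fun γ _ => SlashAction.zero_slash k γ

theorem isG1Inv_of_slashInvariantFormClass {F : Type*} [FunLike F ℍ ℂ]
    [SlashInvariantFormClass F (Gamma1 N : Subgroup (GL (Fin 2) ℝ)) k] (f : F) :
    IsG1Inv N k (f : ℍ → ℂ) := fun γ hγ =>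
  SlashInvariantFormClass.slash_action_eq f (mapGL ℝ γ) (Subgroup.mem_map_of_mem (mapGL ℝ) hγ)

/-! ### surjectivity of `Gamma0Map` onto the units -/

theorem exists_gamma0Unit_eq [NeZero N] (u : (ZMod N)ˣ) : ∃ γ : Gamma0 N, gamma0Unit γ = u := by
  have hcop : Nat.Coprime (u : ZMod N).val N := ZMod.val_coe_unit_coprime u
  have hco : IsCoprime (((u : ZMod N).val : ℕ) : ℤ) (N : ℤ) := Nat.isCoprime_iff_coprime.mpr hcop
  obtain ⟨a, b, hab⟩ := hco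
  let M : Matrix (Fin 2) (Fin 2) ℤ := !![a, -b; (N : ℤ), ((u : ZMod N).val : ℤ)]
  have hdet : M.det = 1 := by
    rw [Matrix.det_fin_two_of]
    linear_combination hab
  have hmem : (⟨M, hdet⟩ : SL(2, ℤ)) ∈ Gamma0 N := by
    refine Gamma0_mem.mpr ?_
    simp [M]
  refine ⟨⟨⟨M, hdet⟩, hmem⟩, ?_⟩
  ext
  simp [Gamma0Map, M]

/-- a representative in `Γ₀(N)` of a unit of `ZMod N` -/
def unitRep [NeZero N] (u : (ZMod N)ˣ) : Gamma0 N := (exists_gamma0Unit_eq u).choose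

@[simp] theorem gamma0Unit_unitRep [NeZero N] (u : (ZMod N)ˣ) : gamma0Unit (unitRep u) = u :=
  (exists_gamma0Unit_eq u).choose_spec

/-! ### the diamond operator on functions -/

/-- the diamond operator `⟨u⟩` on (`Γ₁(N)`-invariant) functions -/
def diamondFun [NeZero N] (k : ℤ) (u : (ZMod N)ˣ) (f : ℍ → ℂ) : ℍ → ℂ :=
  f ∣[k] ((unitRep u : Gamma0 N) : SL(2, ℤ))

theorem IsG1Inv.diamondFun_eq [NeZero N] {f : ℍ → ℂ} (hf : IsG1Inv N k f) (γ : Gamma0 N) :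
    diamondFun k (gamma0Unit γ) f = f ∣[k] (γ : SL(2, ℤ)) :=
  hf.slash_congr (gamma0Unit_unitRep _)

theorem IsG1Inv.diamondFun_eq' [NeZero N] {f : ℍ → ℂ} (hf : IsG1Inv N k f) {γ : Gamma0 N}
    {u : (ZMod N)ˣ} (h : gamma0Unit γ = u) :
    diamondFun k u f = f ∣[k] (γ : SL(2, ℤ)) := by
  rw [← h, hf.diamondFun_eq]

theorem IsG1Inv.isG1Inv_diamondFun [NeZero N] {f : ℍ → ℂ} (hf : IsG1Inv N k f) (u : (ZMod N)ˣ) :
    IsG1Inv N k (diamondFun k u f) := hf.slash _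

theorem IsG1Inv.diamondFun_one [NeZero N] {f : ℍ → ℂ} (hf : IsG1Inv N k f) :
    diamondFun k (1 : (ZMod N)ˣ) f = f :=
  hf.slash_of_gamma0Unit_eq_one (gamma0Unit_unitRep _)

theorem IsG1Inv.diamondFun_mul [NeZero N] {f : ℍ → ℂ} (hf : IsG1Inv N k f) (u v : (ZMod N)ˣ) :
    diamondFun k (u * v) f = diamondFun k v (diamondFun k u f) := by
  have h : gamma0Unit (unitRep u * unitRep v) = u * v := by
    rw [gamma0Unit_mul, gamma0Unit_unitRep, gamma0Unit_unitRep]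
  rw [hf.diamondFun_eq' h, Subgroup.coe_mul, SlashAction.slash_mul]
  rfl

theorem IsG1Inv.diamondFun_comm [NeZero N] {f : ℍ → ℂ} (hf : IsG1Inv N k f) (u v : (ZMod N)ˣ) :
    diamondFun k u (diamondFun k v f) = diamondFun k v (diamondFun k u f) := by
  rw [← hf.diamondFun_mul, ← hf.diamondFun_mul, mul_comm]

theorem diamondFun_add [NeZero N] (u : (ZMod N)ˣ) (f g : ℍ → ℂ) :
    diamondFun k u (f + g) = diamondFun k u f + diamondFun k u g :=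
  SlashAction.add_slash _ _ _ _

theorem diamondFun_smul [NeZero N] (u : (ZMod N)ˣ) (c : ℂ) (f : ℍ → ℂ) :
    diamondFun k u (c • f) = c • diamondFun k u f :=
  SL_smul_slash _ _ _ _

theorem diamondFun_neg [NeZero N] (u : (ZMod N)ˣ) (f : ℍ → ℂ) :
    diamondFun k u (-f) = -diamondFun k u f :=
  SlashAction.neg_slash _ _ _

theorem diamondFun_sub [NeZero N] (u : (ZMod N)ˣ) (f g : ℍ → ℂ) :
    diamondFun k u (f - g) = diamondFun k u f - diamondFun k u g := by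
  rw [sub_eq_add_neg, diamondFun_add, diamondFun_neg, ← sub_eq_add_neg]

theorem diamondFun_zero [NeZero N] (u : (ZMod N)ˣ) : diamondFun k u (0 : ℍ → ℂ) = 0 :=
  SlashAction.zero_slash _ _

/-- `⟨-1⟩ f = (-1)^k f`. -/
theorem IsG1Inv.diamondFun_neg_one [NeZero N] {f : ℍ → ℂ} (hf : IsG1Inv N k f) :
    diamondFun k (-1 : (ZMod N)ˣ) f = ((-1 : ℂ) ^ k) • f := by
  have hmem : (-1 : SL(2, ℤ)) ∈ Gamma0 N := by
    refine Gamma0_mem.mpr ?_
    simp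
  have h : gamma0Unit (⟨-1, hmem⟩ : Gamma0 N) = -1 := by
    ext
    simp [Gamma0Map]
  rw [hf.diamondFun_eq' h]
  ext τ
  rw [SL_slash_apply]
  simp only [Pi.smul_apply, smul_eq_mul]
  have hd : denom ((-1 : SL(2, ℤ)) : GL (Fin 2) ℝ) τ = -1 := by
    simp [denom]
  have hs : ((-1 : SL(2, ℤ))) • τ = τ := by
    ext
    simp
  show f ((-1 : SL(2, ℤ)) • τ) * denom ((-1 : SL(2, ℤ)) : GL (Fin 2) ℝ) τ ^ (-k) = _
  rw [hs, hd, mul_comm, zpow_neg, ← inv_zpow, inv_neg, inv_one]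

/-! ### bundled versions -/

theorem isCusp_smul_Gamma1 [NeZero N] (γ : SL(2, ℤ)) {c : OnePoint ℝ}
    (hc : IsCusp c (Gamma1 N : Subgroup (GL (Fin 2) ℝ))) :
    IsCusp ((mapGL ℝ γ : GL (Fin 2) ℝ) • c) (Gamma1 N : Subgroup (GL (Fin 2) ℝ)) := by
  rw [Subgroup.IsArithmetic.isCusp_iff_isCusp_SL2Z] at hc ⊢
  exact hc.smul_of_mem ⟨γ, rfl⟩

/-- the slash by `γ ∈ Γ₀(N)` as a linear endomorphism of `CuspForm (Gamma1 N) k` -/
def cuspSlash [NeZero N] (k : ℤ) (γ : Gamma0 N) :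
    CuspForm (Gamma1 N : Subgroup (GL (Fin 2) ℝ)) k →ₗ[ℂ]
      CuspForm (Gamma1 N : Subgroup (GL (Fin 2) ℝ)) k where
  toFun f :=
    { toFun := ⇑f ∣[k] (γ : SL(2, ℤ))
      slash_action_eq' := fun A hA => by
        obtain ⟨γ₁, hγ₁, rfl⟩ := hA
        exact (isG1Inv_of_slashInvariantFormClass f).slash γ γ₁ hγ₁
      holo' := (CuspFormClass.holo f).slash k _
      zero_at_cusps' := fun {c} hc =>
        OnePoint.IsZeroAt.smul_iff.mp
          (CuspFormClass.zero_at_cusps f (isCusp_smul_Gamma1 (γ : SL(2, ℤ)) hc)) }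
  map_add' f g := by
    ext τ
    show ((⇑(f + g)) ∣[k] (γ : SL(2, ℤ))) τ = _
    rw [FunLike.coe_add, SlashAction.add_slash]
    rfl
  map_smul' c f := by
    ext τ
    show ((⇑(c • f)) ∣[k] (γ : SL(2, ℤ))) τ = _
    rw [FunLike.coe_smul, SL_smul_slash]
    rfl

@[simp] theorem coe_cuspSlash [NeZero N] (γ : Gamma0 N)
    (f : CuspForm (Gamma1 N : Subgroup (GL (Fin 2) ℝ)) k) :
    ⇑(cuspSlash k γ f) = ⇑f ∣[k] (γ : SL(2, ℤ)) := rfl

/-- the diamond operator `⟨u⟩` on `CuspForm (Gamma1 N) k` -/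
def diamond [NeZero N] (k : ℤ) (u : (ZMod N)ˣ) :
    CuspForm (Gamma1 N : Subgroup (GL (Fin 2) ℝ)) k →ₗ[ℂ]
      CuspForm (Gamma1 N : Subgroup (GL (Fin 2) ℝ)) k :=
  cuspSlash k (unitRep u)

@[simp] theorem coe_diamond [NeZero N] (u : (ZMod N)ˣ)
    (f : CuspForm (Gamma1 N : Subgroup (GL (Fin 2) ℝ)) k) :
    ⇑(diamond k u f) = diamondFun k u ⇑f := rfl

theorem coe_diamond_eq_slash [NeZero N] (γ : Gamma0 N)
    (f : CuspForm (Gamma1 N : Subgroup (GL (Fin 2) ℝ)) k) :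
    ⇑(diamond k (gamma0Unit γ) f) = ⇑f ∣[k] (γ : SL(2, ℤ)) :=
  (isG1Inv_of_slashInvariantFormClass f).diamondFun_eq γ

theorem diamond_one [NeZero N] (f : CuspForm (Gamma1 N : Subgroup (GL (Fin 2) ℝ)) k) :
    diamond k 1 f = f :=
  DFunLike.coe_injective (isG1Inv_of_slashInvariantFormClass f).diamondFun_one

theorem diamond_mul [NeZero N] (u v : (ZMod N)ˣ)
    (f : CuspForm (Gamma1 N : Subgroup (GL (Fin 2) ℝ)) k) :
    diamond k (u * v) f = diamond k v (diamond k u f) :=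
  DFunLike.coe_injective ((isG1Inv_of_slashInvariantFormClass f).diamondFun_mul u v)

theorem diamond_comm [NeZero N] (u v : (ZMod N)ˣ)
    (f : CuspForm (Gamma1 N : Subgroup (GL (Fin 2) ℝ)) k) :
    diamond k u (diamond k v f) = diamond k v (diamond k u f) :=
  DFunLike.coe_injective ((isG1Inv_of_slashInvariantFormClass f).diamondFun_comm u v)

end Fermat.Agent.S48lib.W1
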