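/-
S48lib / W1 / QExp  (helper1)

`IsQExp f` : `f : ℍ → ℂ` is `1`-periodic, holomorphic and bounded at `i∞`; so it has a
`q`-expansion `∑ qCoeff f n qⁿ` which determines it.  Linearity of `qCoeff` on such functions,
and the `q`-expansions of `U_p f`, `f ∣ diag(p, 1)` (all from the Prelude's function-level lemmas).
-/
import Mathlib
import Fermat.Prelude.Def_FLTPrelim_Modularity
import Fermat.Prelude.Def_ModularForm_HeckeOperator
import Fermat.Prelude.Thm_UpperHalfPlane_qCoeff_heckeT
import Fermat.Prelude.Thm_UpperHalfPlane_qCoeff_heckeU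
import Fermat.Prelude.Thm_UpperHalfPlane_eq_of_forall_qCoeff_eq
import Fermat.Prelude.Thm_ModularForm_mdifferentiable_heckeT
import Fermat.Prelude.Thm_ModularForm_mdifferentiable_heckeU
import Fermat.Prelude.Thm_ModularForm_isBoundedAtImInfty_heckeT
import Fermat.Prelude.Thm_ModularForm_isBoundedAtImInfty_heckeU
import Fermat.Prelude.Thm_ModularForm_periodic_heckeT_comp_ofComplex
import Fermat.Prelude.Thm_ModularForm_periodic_heckeU_comp_ofComplex

set_option autoImplicit false

noncomputable section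

namespace Fermat.Agent.S48lib.W1

open UpperHalfPlane ModularForm ModularFormClass
open scoped MatrixGroups ModularForm Manifold

/-- `f` is `1`-periodic, holomorphic and bounded at `i∞`. -/
structure IsQExp (f : ℍ → ℂ) : Prop where
  per : Function.Periodic (f ∘ ofComplex) 1
  hol : MDiff f
  bdd : IsBoundedAtImInfty f

namespace IsQExp

variable {f g : ℍ → ℂ}

theorem analyticAt (hf : IsQExp f) : AnalyticAt ℂ (cuspFunction 1 f) 0 :=
  analyticAt_cuspFunction_zero one_pos hf.per hf.hol hf.bdd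

theorem zero : IsQExp (0 : ℍ → ℂ) where
  per := fun _ => rfl
  hol := fun _ => mdifferentiableAt_const
  bdd := zero_form_isBoundedAtImInfty

theorem add (hf : IsQExp f) (hg : IsQExp g) : IsQExp (f + g) where
  per := fun w => by
    have h1 := hf.per w
    have h2 := hg.per w
    simp only [Function.comp_apply, Pi.add_apply] at h1 h2 ⊢
    rw [h1, h2]
  hol := hf.hol.add hg.hol
  bdd := hf.bdd.add hg.bdd

theorem smul (hf : IsQExp f) (c : ℂ) : IsQExp (c • f) where
  per := fun w => by
    have h1 := hf.per w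
    simp only [Function.comp_apply, Pi.smul_apply] at h1 ⊢
    rw [h1]
  hol := hf.hol.const_smul c
  bdd := hf.bdd.const_smul_left c

theorem neg (hf : IsQExp f) : IsQExp (-f) := by
  have := hf.smul (-1)
  rwa [neg_one_smul] at this

theorem sub (hf : IsQExp f) (hg : IsQExp g) : IsQExp (f - g) := by
  rw [sub_eq_add_neg]
  exact hf.add hg.neg

theorem heckeU (hf : IsQExp f) (k : ℤ) (p : ℕ) : IsQExp (heckeU k p f) where
  per := periodic_heckeU_comp_ofComplex hf.per k p
  hol := mdifferentiable_heckeU hf.hol k p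
  bdd := isBoundedAtImInfty_heckeU hf.bdd k p

theorem heckeT (hf : IsQExp f) (k : ℤ) (p : ℕ) : IsQExp (heckeT k p f) where
  per := periodic_heckeT_comp_ofComplex hf.per k p
  hol := mdifferentiable_heckeT hf.hol k p
  bdd := isBoundedAtImInfty_heckeT hf.bdd k p

theorem slash_diag (hf : IsQExp f) (k : ℤ) (p : ℕ) : IsQExp (f ∣[k] heckeDiagMatrix p) := by
  have h : f ∣[k] heckeDiagMatrix p = ModularForm.heckeT k p f - ModularForm.heckeU k p f := by
    rw [heckeT_eq_heckeU_add, add_sub_cancel_left]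
  rw [h]
  exact (hf.heckeT k p).sub (hf.heckeU k p)

/-- the `q`-expansion principle -/
theorem ext (hf : IsQExp f) (hg : IsQExp g) (h : ∀ n : ℕ, qCoeff f n = qCoeff g n) : f = g :=
  eq_of_forall_qCoeff_eq hf.per hf.hol hf.bdd hg.per hg.hol hg.bdd h

theorem qCoeff_add (hf : IsQExp f) (hg : IsQExp g) (n : ℕ) :
    qCoeff (f + g) n = qCoeff f n + qCoeff g n := by
  unfold qCoeff
  rw [qExpansion_add hf.analyticAt hg.analyticAt, map_add]

theorem qCoeff_smul (hf : IsQExp f) (c : ℂ) (n : ℕ) :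
    qCoeff (c • f) n = c * qCoeff f n := by
  unfold qCoeff
  rw [qExpansion_smul hf.analyticAt, PowerSeries.coeff_smul, smul_eq_mul]

theorem qCoeff_neg (hf : IsQExp f) (n : ℕ) : qCoeff (-f) n = -qCoeff f n := by
  unfold qCoeff
  rw [qExpansion_neg hf.analyticAt, map_neg]

theorem qCoeff_sub (hf : IsQExp f) (hg : IsQExp g) (n : ℕ) :
    qCoeff (f - g) n = qCoeff f n - qCoeff g n := by
  unfold qCoeff
  rw [qExpansion_sub hf.analyticAt hg.analyticAt, map_sub]

theorem qCoeff_heckeU (hf : IsQExp f) (k : ℤ) {p : ℕ} (hp : p ≠ 0) (n : ℕ) :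
    qCoeff (ModularForm.heckeU k p f) n = qCoeff f (n * p) := by
  rw [UpperHalfPlane.qCoeff_heckeU hf.per hf.hol hf.bdd k hp n, coeffHeckeU_apply]

theorem qCoeff_slash_diag (hf : IsQExp f) (k : ℤ) {p : ℕ} (hp : p ≠ 0) (n : ℕ) :
    qCoeff (f ∣[k] heckeDiagMatrix p) n =
      if p ∣ n then (p : ℂ) ^ (k - 1) * qCoeff f (n / p) else 0 := by
  have h : f ∣[k] heckeDiagMatrix p = ModularForm.heckeT k p f - ModularForm.heckeU k p f := by
    rw [heckeT_eq_heckeU_add, add_sub_cancel_left]
  rw [h, (hf.heckeT k p).qCoeff_sub (hf.heckeU k p),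
    UpperHalfPlane.qCoeff_heckeT hf.per hf.hol hf.bdd k hp n,
    UpperHalfPlane.qCoeff_heckeU hf.per hf.hol hf.bdd k hp n, coeffHeckeT_apply, coeffHeckeU_apply,
    add_sub_cancel_left]

theorem eq_zero_of_qCoeff (hf : IsQExp f) (h : ∀ n : ℕ, qCoeff f n = 0) : f = 0 := by
  refine hf.ext IsQExp.zero fun n => ?_
  rw [h n]
  unfold qCoeff
  rw [qExpansion_zero, map_zero]

end IsQExp

end Fermat.Agent.S48lib.W1
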