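/-
S48lib / W1 / HeckeT  (helper1)

The Hecke operator `T_p` (`p ∤ N` prime) on `Γ₁(N)`-invariant functions and on
`CuspForm (Gamma1 N) k`:

  `heckeT1Fun k p h f = U_p f + (⟨p⟩ f) ∣[k] diag(p, 1)`.

* `IsG1Inv.heckeT1Fun_slash` : for `γ ∈ Γ₀(N)`, `(T_p f) ∣ γ = T_p (f ∣ γ)` (coset bookkeeping of
  `S16lib/LH/Cosets`, twisted by the diamond operators);
* `heckeT1 k p hp hpN : CuspForm (Gamma1 N) k →ₗ[ℂ] CuspForm (Gamma1 N) k`;
* `qCoeff_heckeT1` : `a_n(T_p f) = a_{pn}(f) + [p ∣ n] p^{k-1} a_{n/p}(⟨p⟩ f)`;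
* `heckeT1_diamond_comm`.
-/
import Mathlib
import Fermat.Agent.S48lib.W1.Diamond
import Fermat.Agent.S48lib.W1.QExp
import Fermat.Prelude.Def_ModularForm_HeckeOperatorForms

set_option autoImplicit false
set_option linter.unusedSectionVars false

noncomputable section

namespace Fermat.Agent.S48lib.W1

open UpperHalfPlane CongruenceSubgroup Matrix.SpecialLinearGroup ModularForm ModularFormClass
open P2MW.S_ModularForm_heckeT_slash_eq_self_of_mem_Gamma0.ModularForm.HeckeSlashInvariance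
open Fermat.Agent.S16lib.LH
open scoped MatrixGroups ModularForm Manifold

variable {N : ℕ} [NeZero N] {k : ℤ}

/-- `1` is a strict period of `Γ₁(N)`. -/
theorem one_mem_strictPeriods_Gamma1 (N : ℕ) :
    (1 : ℝ) ∈ (Gamma1 N : Subgroup (GL (Fin 2) ℝ)).strictPeriods := by
  have hT : ModularGroup.T ∈ Gamma1 N := by
    rw [Gamma1_mem]
    simp [ModularGroup.T]
  have h := Subgroup.strictPeriods_eq_zmultiples_one_of_T_mem hT
  rw [h]
  exact AddSubgroup.mem_zmultiples (1 : ℝ)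

/-- cusp forms on `Γ₁(N)` have `q`-expansions -/
theorem isQExp_of_cuspForm (f : CuspForm (Gamma1 N : Subgroup (GL (Fin 2) ℝ)) k) :
    IsQExp (f : ℍ → ℂ) where
  per := SlashInvariantFormClass.periodic_comp_ofComplex f (one_mem_strictPeriods_Gamma1 N)
  hol := CuspFormClass.holo f
  bdd := ModularFormClass.bdd_at_infty f

/-- modular forms on `Γ₁(N)` have `q`-expansions -/
theorem isQExp_of_modularForm (f : ModularForm (Gamma1 N : Subgroup (GL (Fin 2) ℝ)) k) :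
    IsQExp (f : ℍ → ℂ) where
  per := SlashInvariantFormClass.periodic_comp_ofComplex f (one_mem_strictPeriods_Gamma1 N)
  hol := ModularFormClass.holo f
  bdd := ModularFormClass.bdd_at_infty f

section Fun

variable {p : ℕ} [Fact p.Prime]

/-- the unit `p mod N` -/
def pUnit (N p : ℕ) (h : Nat.Coprime p N) : (ZMod N)ˣ := ZMod.unitOfCoprime p h

@[simp] theorem coe_pUnit (h : Nat.Coprime p N) : ((pUnit N p h : (ZMod N)ˣ) : ZMod N) = p :=
  ZMod.coe_unitOfCoprime p h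

theorem coprime_of_not_dvd (hpN : ¬ p ∣ N) : Nat.Coprime p N :=
  (Nat.Prime.coprime_iff_not_dvd Fact.out).mpr hpN

/-- the diamond twist of the representative `α_x`: `p` at `∞`, `1` at the finite points -/
def tw (h : Nat.Coprime p N) (x : OnePoint (ZMod p)) : (ZMod N)ˣ :=
  x.elim (pUnit N p h) (fun _ => 1)

@[simp] theorem tw_infty (h : Nat.Coprime p N) : tw h (OnePoint.infty : OnePoint (ZMod p)) = pUnit N p h :=
  rfl

@[simp] theorem tw_coe (h : Nat.Coprime p N) (j : ZMod p) : tw h (j : OnePoint (ZMod p)) = 1 := rfl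

theorem tw_mul_repD (h : Nat.Coprime p N) (x : OnePoint (ZMod p)) :
    ((tw h x : (ZMod N)ˣ) : ZMod N) * (repD p x : ZMod N) = (p : ZMod N) := by
  induction x using OnePoint.rec with
  | infty => simp
  | coe j => simp

theorem isUnit_repD (h : Nat.Coprime p N) (x : OnePoint (ZMod p)) :
    IsUnit ((repD p x : ℕ) : ZMod N) := by
  induction x using OnePoint.rec with
  | infty => simp
  | coe j =>
    rw [repD_coe]
    exact (ZMod.unitOfCoprime p h).isUnit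

/-- the Hecke operator `T_p` on functions -/
def heckeT1Fun (k : ℤ) (p : ℕ) (h : Nat.Coprime p N) (f : ℍ → ℂ) : ℍ → ℂ :=
  ModularForm.heckeU k p f + (diamondFun k (pUnit N p h) f) ∣[k] heckeDiagMatrix p

theorem IsG1Inv.heckeT1Fun_eq_sum {f : ℍ → ℂ} (hf : IsG1Inv N k f) (h : Nat.Coprime p N) :
    heckeT1Fun k p h f = ∑ x : OnePoint (ZMod p), (diamondFun k (tw h x) f) ∣[k] heckeRep p x := by
  rw [heckeT1Fun, heckeU_eq_sum_zmod, add_comm]
  rw [show (∑ x : OnePoint (ZMod p), (diamondFun k (tw h x) f) ∣[k] heckeRep p x) =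
    (diamondFun k (tw h (OnePoint.infty : OnePoint (ZMod p))) f) ∣[k] heckeRep p OnePoint.infty +
      ∑ j : ZMod p, (diamondFun k (tw h (j : OnePoint (ZMod p))) f) ∣[k] heckeRep p j from
    Fintype.sum_option (fun x : OnePoint (ZMod p) => (diamondFun k (tw h x) f) ∣[k] heckeRep p x)]
  simp only [tw_infty, tw_coe, hf.diamondFun_one]
  rfl

/-- the key identity of units: `tw x * d(c(γ, x)) = d(γ) * tw (σ x)`. -/
theorem tw_mul_gamma0Unit_tCoc (h : Nat.Coprime p N) (hpN : ¬ p ∣ N) (γ : Gamma0 N)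
    (x : OnePoint (ZMod p)) :
    tw h x * gamma0Unit (tCoc hpN γ x) = gamma0Unit γ * tw h (tPerm p γ x) := by
  ext
  have h1 := gamma0Map_tCoc hpN γ x
  have h2 := tw_mul_repD h x
  have h3 := tw_mul_repD h (tPerm p γ x)
  obtain ⟨u, hu⟩ := isUnit_repD h (tPerm p γ x)
  simp only [Units.val_mul, coe_gamma0Unit]
  have key : (((tw h x : (ZMod N)ˣ) : ZMod N) * Gamma0Map N (tCoc hpN γ x)) * (u : ZMod N) =
      (Gamma0Map N γ * ((tw h (tPerm p γ x) : (ZMod N)ˣ) : ZMod N)) * (u : ZMod N) := by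
    rw [hu]
    calc ((tw h x : (ZMod N)ˣ) : ZMod N) * Gamma0Map N (tCoc hpN γ x) * (repD p (tPerm p γ x) : ZMod N)
        = ((tw h x : (ZMod N)ˣ) : ZMod N) *
            (Gamma0Map N (tCoc hpN γ x) * (repD p (tPerm p γ x) : ZMod N)) := by ring
      _ = (((tw h x : (ZMod N)ˣ) : ZMod N) * (repD p x : ZMod N)) * Gamma0Map N γ := by
          rw [h1]; ring
      _ = Gamma0Map N γ * (((tw h (tPerm p γ x) : (ZMod N)ˣ) : ZMod N) *
            (repD p (tPerm p γ x) : ZMod N)) := by rw [h2, h3]; ring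
      _ = _ := by ring
  exact u.isUnit.mul_left_injective key

/-- **`T_p` commutes with the slash by `Γ₀(N)`** on `Γ₁(N)`-invariant functions. -/
theorem IsG1Inv.heckeT1Fun_slash {f : ℍ → ℂ} (hf : IsG1Inv N k f) (h : Nat.Coprime p N)
    (hpN : ¬ p ∣ N) (γ : Gamma0 N) :
    (heckeT1Fun k p h f) ∣[k] (γ : SL(2, ℤ)) = heckeT1Fun k p h (f ∣[k] (γ : SL(2, ℤ))) := by
  rw [hf.heckeT1Fun_eq_sum h, (hf.slash γ).heckeT1Fun_eq_sum h]
  show (∑ x : OnePoint (ZMod p), (diamondFun k (tw h x) f) ∣[k] heckeRep p x) ∣[k]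
    (mapGL ℝ (γ : SL(2, ℤ)) : GL (Fin 2) ℝ) = _
  rw [SlashAction.sum_slash]
  rw [← Equiv.sum_comp (tPerm p γ)
    (fun x => (diamondFun k (tw h x) (f ∣[k] (γ : SL(2, ℤ)))) ∣[k] heckeRep p x)]
  refine Finset.sum_congr rfl fun x _ => ?_
  rw [← SlashAction.slash_mul, tCoc_rel hpN γ x, SlashAction.slash_mul]
  congr 1
  show (diamondFun k (tw h x) f) ∣[k] ((tCoc hpN γ x : Gamma0 N) : SL(2, ℤ)) = _
  -- `(⟨tw x⟩ f) ∣ c(γ, x) = ⟨tw (σ x)⟩ (f ∣ γ)`
  rw [← (hf.isG1Inv_diamondFun (tw h x)).diamondFun_eq (tCoc hpN γ x),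
    ← hf.diamondFun_mul, tw_mul_gamma0Unit_tCoc h hpN γ x, hf.diamondFun_mul,
    hf.diamondFun_eq γ]

theorem IsG1Inv.isG1Inv_heckeT1Fun {f : ℍ → ℂ} (hf : IsG1Inv N k f) (h : Nat.Coprime p N)
    (hpN : ¬ p ∣ N) : IsG1Inv N k (heckeT1Fun k p h f) := by
  intro γ hγ
  have h0 : γ ∈ Gamma0 N := Gamma1_in_Gamma0 N hγ
  have := hf.heckeT1Fun_slash h hpN ⟨γ, h0⟩
  rw [show f ∣[k] ((⟨γ, h0⟩ : Gamma0 N) : SL(2, ℤ)) = f from hf γ hγ] at this
  exact this

/-- `T_p` commutes with the diamond operators. -/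
theorem IsG1Inv.heckeT1Fun_diamondFun {f : ℍ → ℂ} (hf : IsG1Inv N k f) (h : Nat.Coprime p N)
    (hpN : ¬ p ∣ N) (u : (ZMod N)ˣ) :
    diamondFun k u (heckeT1Fun k p h f) = heckeT1Fun k p h (diamondFun k u f) :=
  hf.heckeT1Fun_slash h hpN (unitRep u)

theorem heckeT1Fun_add (h : Nat.Coprime p N) (f g : ℍ → ℂ) :
    heckeT1Fun k p h (f + g) = heckeT1Fun k p h f + heckeT1Fun k p h g := by
  simp only [heckeT1Fun, heckeU_add, diamondFun_add, SlashAction.add_slash]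
  abel

theorem heckeT1Fun_smul (h : Nat.Coprime p N) (c : ℂ) (f : ℍ → ℂ) :
    heckeT1Fun k p h (c • f) = c • heckeT1Fun k p h f := by
  simp only [heckeT1Fun, heckeU_smul, diamondFun_smul, ModularForm.smul_slash, σ_heckeDiagMatrix,
    ContinuousAlgEquiv.refl_apply, smul_add]

theorem IsQExp.heckeT1Fun {f : ℍ → ℂ} (hf : IsQExp f) (hd : ∀ u : (ZMod N)ˣ, IsQExp (diamondFun k u f))
    (h : Nat.Coprime p N) : IsQExp (heckeT1Fun k p h f) :=
  (hf.heckeU k p).add ((hd _).slash_diag k p)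

/-- the `q`-expansion of `T_p f`. -/
theorem qCoeff_heckeT1Fun {f : ℍ → ℂ} (hf : IsQExp f)
    (hd : ∀ u : (ZMod N)ˣ, IsQExp (diamondFun k u f)) (h : Nat.Coprime p N) (n : ℕ) :
    qCoeff (heckeT1Fun k p h f) n = qCoeff f (n * p) +
      if p ∣ n then (p : ℂ) ^ (k - 1) * qCoeff (diamondFun k (pUnit N p h) f) (n / p) else 0 := by
  have hp : p ≠ 0 := (Fact.out : p.Prime).ne_zero
  rw [W1.heckeT1Fun, (hf.heckeU k p).qCoeff_add ((hd _).slash_diag k p), hf.qCoeff_heckeU k hp,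
    (hd _).qCoeff_slash_diag k hp]

end Fun

/-! ### bundled version -/

theorem isZeroAt_neg {c : OnePoint ℝ} {f : ℍ → ℂ} (hf : c.IsZeroAt f k) : c.IsZeroAt (-f) k :=
  fun g hg => by
    have := (hf g hg).neg
    rwa [← SlashAction.neg_slash] at this

theorem isZeroAt_slash_diag {Γ : Subgroup (GL (Fin 2) ℝ)} [Γ.IsArithmetic]
    (g : CuspForm Γ k) (p : ℕ) {c : OnePoint ℝ} (hc : IsCusp c Γ) :
    c.IsZeroAt ((g : ℍ → ℂ) ∣[k] heckeDiagMatrix p) k := by
  have h : (g : ℍ → ℂ) ∣[k] heckeDiagMatrix p =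
      ModularForm.heckeT k p ⇑g + -ModularForm.heckeU k p ⇑g := by
    rw [heckeT_eq_heckeU_add]
    abel
  rw [h]
  exact (CuspFormClass.isZeroAt_heckeT g p hc).add (isZeroAt_neg (CuspFormClass.isZeroAt_heckeU g p hc))

/-- the Hecke operator `T_p`, `p ∤ N` prime, on `CuspForm (Gamma1 N) k`. -/
def heckeT1 (k : ℤ) {p : ℕ} (hp : p.Prime) (hpN : ¬ p ∣ N) :
    CuspForm (Gamma1 N : Subgroup (GL (Fin 2) ℝ)) k →ₗ[ℂ]
      CuspForm (Gamma1 N : Subgroup (GL (Fin 2) ℝ)) k :=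
  haveI : Fact p.Prime := ⟨hp⟩
  { toFun := fun f =>
      { toFun := heckeT1Fun k p (coprime_of_not_dvd hpN) ⇑f
        slash_action_eq' := fun A hA => by
          obtain ⟨γ₁, hγ₁, rfl⟩ := hA
          exact (isG1Inv_of_slashInvariantFormClass f).isG1Inv_heckeT1Fun _ hpN γ₁ hγ₁
        holo' := ((isQExp_of_cuspForm f).heckeT1Fun
          (fun u => isQExp_of_cuspForm (diamond k u f)) _).hol
        zero_at_cusps' := fun hc =>
          (CuspFormClass.isZeroAt_heckeU f p hc).add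
            (isZeroAt_slash_diag (diamond k (pUnit N p (coprime_of_not_dvd hpN)) f) p hc) }
    map_add' := fun f g => DFunLike.coe_injective <| by
      show heckeT1Fun k p _ ⇑(f + g) = heckeT1Fun k p _ ⇑f + heckeT1Fun k p _ ⇑g
      rw [FunLike.coe_add, heckeT1Fun_add]
    map_smul' := fun c f => DFunLike.coe_injective <| by
      show heckeT1Fun k p _ ⇑(c • f) = c • heckeT1Fun k p _ ⇑f
      rw [FunLike.coe_smul, heckeT1Fun_smul] }

theorem coe_heckeT1 {p : ℕ} (hp : p.Prime) (hpN : ¬ p ∣ N)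
    (f : CuspForm (Gamma1 N : Subgroup (GL (Fin 2) ℝ)) k) :
    haveI : Fact p.Prime := ⟨hp⟩
    ⇑(heckeT1 k hp hpN f) = heckeT1Fun k p (coprime_of_not_dvd hpN) ⇑f := rfl

/-- **`q`-expansion of `T_p f`**: `a_n(T_p f) = a_{np}(f) + [p ∣ n] p^{k-1} a_{n/p}(⟨p⟩ f)`. -/
theorem qCoeff_heckeT1 {p : ℕ} (hp : p.Prime) (hpN : ¬ p ∣ N)
    (f : CuspForm (Gamma1 N : Subgroup (GL (Fin 2) ℝ)) k) (n : ℕ) :
    haveI : Fact p.Prime := ⟨hp⟩
    qCoeff (heckeT1 k hp hpN f) n = qCoeff f (n * p) +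
      if p ∣ n then (p : ℂ) ^ (k - 1) *
        qCoeff (diamond k (pUnit N p (coprime_of_not_dvd hpN)) f) (n / p) else 0 := by
  haveI : Fact p.Prime := ⟨hp⟩
  exact qCoeff_heckeT1Fun (isQExp_of_cuspForm f) (fun u => isQExp_of_cuspForm (diamond k u f)) _ n

/-- `T_p` commutes with the diamond operators. -/
theorem diamond_heckeT1 {p : ℕ} (hp : p.Prime) (hpN : ¬ p ∣ N) (u : (ZMod N)ˣ)
    (f : CuspForm (Gamma1 N : Subgroup (GL (Fin 2) ℝ)) k) :
    diamond k u (heckeT1 k hp hpN f) = heckeT1 k hp hpN (diamond k u f) :=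
  haveI : Fact p.Prime := ⟨hp⟩
  DFunLike.coe_injective
    ((isG1Inv_of_slashInvariantFormClass f).heckeT1Fun_diamondFun (coprime_of_not_dvd hpN) hpN u)


theorem hecke_coeff_comm {p q : ℕ} (hp : p.Prime) (hq : q.Prime) (hpq : p ≠ q)
    (a b c d : ℕ → ℂ) (P Q : ℂ) (n : ℕ) :
    (a (n * p * q) + if q ∣ n * p then Q * c (n * p / q) else 0) +
      (if p ∣ n then P * (b (n / p * q) + if q ∣ n / p then Q * d (n / p / q) else 0) else 0) =
    (a (n * q * p) + if p ∣ n * q then P * b (n * q / p) else 0) +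
      (if q ∣ n then Q * (c (n / q * p) + if p ∣ n / q then P * d (n / q / p) else 0) else 0) := by
  have hqp : ¬ q ∣ p := fun h => hpq ((Nat.prime_dvd_prime_iff_eq hq hp).mp h).symm
  have hpq' : ¬ p ∣ q := fun h => hpq ((Nat.prime_dvd_prime_iff_eq hp hq).mp h)
  have h1 : (q ∣ n * p) ↔ q ∣ n := by
    rw [hq.dvd_mul]; tauto
  have h2 : (p ∣ n * q) ↔ p ∣ n := by
    rw [hp.dvd_mul]; tauto
  have hcomm : n * p * q = n * q * p := by ring
  by_cases hpn : p ∣ n <;> by_cases hqn : q ∣ n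
  · -- both divide
    obtain ⟨m, rfl⟩ := hpn
    have hqm : q ∣ m := (hq.dvd_mul.mp hqn).resolve_left hqp
    obtain ⟨r, rfl⟩ := hqm
    have e1 : p * (q * r) * p / q = r * p * p := by
      rw [show p * (q * r) * p = q * (r * p * p) by ring, Nat.mul_div_cancel_left _ hq.pos]
    have e2 : p * (q * r) / p = q * r := Nat.mul_div_cancel_left _ hp.pos
    have e3 : q * r / q = r := Nat.mul_div_cancel_left _ hq.pos
    have e4 : p * (q * r) * q / p = q * r * q := by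
      rw [show p * (q * r) * q = p * (q * r * q) by ring, Nat.mul_div_cancel_left _ hp.pos]
    have e5 : p * (q * r) / q = p * r := by
      rw [show p * (q * r) = q * (p * r) by ring, Nat.mul_div_cancel_left _ hq.pos]
    have e6 : p * r / p = r := Nat.mul_div_cancel_left _ hp.pos
    have d1 : q ∣ p * (q * r) * p := ⟨r * p * p, by ring⟩
    have d2 : p ∣ p * (q * r) := ⟨q * r, rfl⟩
    have d3 : q ∣ q * r := ⟨r, rfl⟩
    have d4 : p ∣ p * (q * r) * q := ⟨q * r * q, by ring⟩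
    have d5 : q ∣ p * (q * r) := ⟨p * r, by ring⟩
    have d6 : p ∣ p * r := ⟨r, rfl⟩
    rw [if_pos d1, if_pos d2, if_pos d4, if_pos d5, e1, e2, e3, e4, e5, e6, if_pos d3, if_pos d6,
      hcomm, show r * p * p = p * r * p by ring]
    ring
  · obtain ⟨m, rfl⟩ := hpn
    have hqm : ¬ q ∣ m := fun h => hqn (Dvd.dvd.mul_left h p)
    have e2 : p * m / p = m := Nat.mul_div_cancel_left _ hp.pos
    have e4 : p * m * q / p = m * q := by
      rw [show p * m * q = p * (m * q) by ring, Nat.mul_div_cancel_left _ hp.pos]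
    have d2 : p ∣ p * m := ⟨m, rfl⟩
    have d4 : p ∣ p * m * q := ⟨m * q, by ring⟩
    rw [if_neg (h1.not.mpr hqn), if_pos d2, if_pos d4, if_neg hqn, e2, e4, if_neg hqm, hcomm]
    ring
  · obtain ⟨m, rfl⟩ := hqn
    have hpm : ¬ p ∣ m := fun h => hpn (Dvd.dvd.mul_left h q)
    have e2 : q * m / q = m := Nat.mul_div_cancel_left _ hq.pos
    have e4 : q * m * p / q = m * p := by
      rw [show q * m * p = q * (m * p) by ring, Nat.mul_div_cancel_left _ hq.pos]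
    have d2 : q ∣ q * m := ⟨m, rfl⟩
    have d4 : q ∣ q * m * p := ⟨m * p, by ring⟩
    rw [if_neg (h2.not.mpr hpn), if_pos d2, if_pos d4, if_neg hpn, e2, e4, if_neg hpm, hcomm]
    ring
  · rw [if_neg (h1.not.mpr hqn), if_neg (h2.not.mpr hpn), if_neg hpn, if_neg hqn, hcomm]

/-- the Hecke operators `T_p`, `T_q` commute. -/
theorem heckeT1_comm {p q : ℕ} (hp : p.Prime) (hpN : ¬ p ∣ N) (hq : q.Prime) (hqN : ¬ q ∣ N)
    (f : CuspForm (Gamma1 N : Subgroup (GL (Fin 2) ℝ)) k) :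
    heckeT1 k hp hpN (heckeT1 k hq hqN f) = heckeT1 k hq hqN (heckeT1 k hp hpN f) := by
  rcases eq_or_ne p q with rfl | hpq
  · rfl
  haveI : Fact p.Prime := ⟨hp⟩
  haveI : Fact q.Prime := ⟨hq⟩
  apply DFunLike.coe_injective
  refine (isQExp_of_cuspForm _).ext (isQExp_of_cuspForm _) fun n => ?_
  rw [qCoeff_heckeT1 hp hpN, qCoeff_heckeT1 hq hqN, diamond_heckeT1 hq hqN, qCoeff_heckeT1 hq hqN,
    qCoeff_heckeT1 hq hqN, qCoeff_heckeT1 hp hpN, diamond_heckeT1 hp hpN, qCoeff_heckeT1 hp hpN,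
    diamond_comm (pUnit N p (coprime_of_not_dvd hpN)) (pUnit N q (coprime_of_not_dvd hqN)) f]
  exact hecke_coeff_comm hp hq hpq _ _ _ _ _ _ n

end Fermat.Agent.S48lib.W1
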