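/-
S48lib / W1 / SlashSum  (helper1)

The adjoint Hecke operator on an eigenform with nebentypus, as a sum of slashes over the standard
transversal of `Γ diag(p,1) Γ` (`Γ = ±Γ₁(M)`, `p ∤ M`):

  `∑ x, g ∣[2] A_x = (χ(p)⁻¹ b_p) • g`      (`sum_slash_stdTransversal`)

for `g ∈ S₂(Γ₁(M))` with `HasNebentypus g χ` and `IsHeckeEigenAway g χ b`.
Route: reindex to the representatives `diag(p,1)`, `δ (1 j; 0 p)` (`δ ∈ Γ₀(M)`, `p δ₁₁ ≡ 1`), so the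
sum is `g ∣ diag(p,1) + χ(p)⁻¹ U_p g`; compare `q`-expansions.
-/
import Mathlib
import Fermat.Agent.S48lib.W1.HeckeT
import Fermat.Agent.S48lib.Iface.W2
import Fermat.Agent.S48lib.X1.Forms.Pm
import Fermat.Agent.S48lib.X1.HeckeJ.Reindex
import Fermat.Agent.S48lib.X1.HeckeJ.DiamondElt

set_option autoImplicit false
set_option linter.unusedSectionVars false

noncomputable section

namespace Fermat.Agent.S48lib.W1

open UpperHalfPlane CongruenceSubgroup Matrix.SpecialLinearGroup ModularForm ModularFormClass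
open P2MW.S_ModularForm_heckeT_slash_eq_self_of_mem_Gamma0.ModularForm.HeckeSlashInvariance
open Fermat.Agent.S48lib.X1.HeckeJ Fermat.Agent.S48lib.X1.Wp Fermat.Agent.S48lib.X1.Forms
open scoped MatrixGroups ModularForm Manifold

/-- **reindexing**: for a `Γ`-invariant function the sum of slashes over the Hecke transversal is the
sum over the twisted representatives. -/
theorem sum_slash_std_eq_twRep {Γ : Subgroup SL(2, ℤ)} {p : ℕ} [Fact p.Prime] (h : PLevel Γ p)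
    {δ : SL(2, ℤ)}
    (hδ : ∃ γ₁ ∈ Γ, ∃ γ₂ ∈ Γ, (mapGL ℝ δ : GL (Fin 2) ℝ) * heckeMatrix p 0 =
      mapGL ℝ γ₁ * heckeDiagMatrix p * mapGL ℝ γ₂) (k : ℤ) (F : ℍ → ℂ)
    (hF : ∀ γ ∈ Γ, F ∣[k] (mapGL ℝ γ : GL (Fin 2) ℝ) = F) :
    ∑ x : OnePoint (ZMod p), F ∣[k] h.stdTransversal.A x =
      ∑ o : OnePoint (ZMod p), F ∣[k] twRep p δ o := by
  choose φ γ hγ hφ using h.exists_std_of_twRep hδ
  have hinj : Function.Injective φ := by
    intro o o' hoo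
    have h1 := hφ o
    have h2 := hφ o'
    rw [hoo] at h1
    have h3 : twRep p δ o = (mapGL ℝ (γ o * (γ o')⁻¹) : GL (Fin 2) ℝ) * twRep p δ o' := by
      rw [h1, h2, map_mul, map_inv]
      group
    exact twRep_injective_mod δ h3
  have hbij : Function.Bijective φ := hinj.bijective_of_finite
  rw [← (Equiv.ofBijective φ hbij).sum_comp]
  refine Finset.sum_congr rfl fun o _ => ?_
  rw [Equiv.ofBijective_apply, hφ o, SlashAction.slash_mul, hF _ (hγ o)]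

variable {M : ℕ} [NeZero M] {p : ℕ} [Fact p.Prime]

/-- a cusp form on `Γ₁(M)` of weight 2 is invariant under `±Γ₁(M)` -/
theorem slash_pmGamma1_eq (g : CuspForm (Gamma1 M : Subgroup (GL (Fin 2) ℝ)) 2) {γ : SL(2, ℤ)}
    (hγ : γ ∈ pmGamma1 M) : (⇑g : ℍ → ℂ) ∣[(2 : ℤ)] (mapGL ℝ γ : GL (Fin 2) ℝ) = ⇑g :=
  slash_mapGL_eq (toPm M g) hγ

/-- the diamond element: `δ ∈ Γ₀(M)` with `p δ₁₁ ≡ 1 (mod M)` -/
theorem exists_diamondElt (hpM : ¬ p ∣ M) :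
    ∃ δ : SL(2, ℤ), δ ∈ Gamma0 M ∧ (p : ZMod M) * (((δ 1 1 : ℤ)) : ZMod M) = 1 ∧
      ∃ γ₁ ∈ pmGamma1 M, ∃ γ₂ ∈ pmGamma1 M, (mapGL ℝ δ : GL (Fin 2) ℝ) * heckeMatrix p 0 =
        mapGL ℝ γ₁ * heckeDiagMatrix p * mapGL ℝ γ₂ := by
  have hcop : Nat.Coprime p M := coprime_of_not_dvd hpM
  set u : (ZMod M)ˣ := pUnit M p hcop with hu
  set δ : Gamma0 M := unitRep u⁻¹ with hδ
  have h1 : (p : ZMod M) * ((((δ : SL(2, ℤ)) 1 1 : ℤ)) : ZMod M) = 1 := by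
    have e1 : ((((δ : SL(2, ℤ)) 1 1 : ℤ)) : ZMod M) = ((u⁻¹ : (ZMod M)ˣ) : ZMod M) := by
      have := congrArg Units.val (gamma0Unit_unitRep u⁻¹)
      rw [coe_gamma0Unit] at this
      exact this
    rw [e1, ← coe_pUnit hcop, ← Units.val_mul, mul_inv_cancel, Units.val_one]
  refine ⟨(δ : SL(2, ℤ)), δ.2, h1, ?_⟩
  refine exists_mul_diag_mul_pmGamma1 hpM ?_ (Or.inl ?_)
  · exact (ZMod.intCast_zmod_eq_zero_iff_dvd _ _).mp (Gamma0_mem.mp δ.2)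
  · rw [← ZMod.intCast_zmod_eq_zero_iff_dvd]
    push_cast
    rw [h1, sub_self]

/-- **the adjoint Hecke operator as a sum over the standard transversal**. -/
theorem sum_slash_stdTransversal (hpM : ¬ p ∣ M) {χ : DirichletCharacter ℂ M}
    {g : CuspForm (Gamma1 M : Subgroup (GL (Fin 2) ℝ)) 2} {b : ℕ → ℂ}
    (hχ : Iface.HasNebentypus g χ) (hb : Iface.IsHeckeEigenAway g χ b) :
    ∑ x : OnePoint (ZMod p), (⇑g : ℍ → ℂ) ∣[(2 : ℤ)] ((pLevel_pmGamma1 hpM).stdTransversal.A x) =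
      ((χ (p : ZMod M))⁻¹ * b p) • (⇑g : ℍ → ℂ) := by
  have hp : p.Prime := Fact.out
  have hp0 : p ≠ 0 := hp.ne_zero
  obtain ⟨δ, hδ0, hδ1, hδ⟩ := exists_diamondElt (M := M) (p := p) hpM
  -- the value `χ(δ₁₁) = χ(p)⁻¹`
  have hc : χ (((δ 1 1 : ℤ)) : ZMod M) = (χ (p : ZMod M))⁻¹ := by
    apply eq_inv_of_mul_eq_one_left
    rw [← map_mul, mul_comm, hδ1, map_one]
  have hχp : χ (p : ZMod M) ≠ 0 := by
    intro h0
    have : χ ((p : ZMod M) * (((δ 1 1 : ℤ)) : ZMod M)) = 1 := by rw [hδ1, map_one]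
    rw [map_mul, h0, zero_mul] at this
    exact zero_ne_one this
  set c : ℂ := (χ (p : ZMod M))⁻¹ with hcdef
  -- step 1: reindex
  rw [sum_slash_std_eq_twRep (pLevel_pmGamma1 hpM) hδ 2 ⇑g (fun γ hγ => slash_pmGamma1_eq g hγ)]
  -- step 2: the twisted sum
  have h2 : ∑ o : OnePoint (ZMod p), (⇑g : ℍ → ℂ) ∣[(2 : ℤ)] twRep p δ o =
      (⇑g : ℍ → ℂ) ∣[(2 : ℤ)] heckeDiagMatrix p + c • ModularForm.heckeU 2 p ⇑g := by
    have := Fintype.sum_option (fun o : OnePoint (ZMod p) => (⇑g : ℍ → ℂ) ∣[(2 : ℤ)] twRep p δ o)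
    refine this.trans ?_
    congr 1
    rw [heckeU_eq_sum_zmod, Finset.smul_sum]
    refine Finset.sum_congr rfl fun j _ => ?_
    show (⇑g : ℍ → ℂ) ∣[(2 : ℤ)] ((mapGL ℝ δ : GL (Fin 2) ℝ) * heckeMatrix p j.val) = _
    rw [SlashAction.slash_mul]
    have hneb : (⇑g : ℍ → ℂ) ∣[(2 : ℤ)] (mapGL ℝ δ : GL (Fin 2) ℝ) = c • (⇑g : ℍ → ℂ) := by
      have := hχ δ hδ0
      rw [hc] at this
      exact this
    rw [hneb, ModularForm.smul_slash, σ_heckeMatrix]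
    rfl
  rw [h2]
  -- step 3: compare `q`-expansions
  have hg : IsQExp (⇑g : ℍ → ℂ) := isQExp_of_cuspForm g
  have hL : IsQExp ((⇑g : ℍ → ℂ) ∣[(2 : ℤ)] heckeDiagMatrix p + c • ModularForm.heckeU 2 p ⇑g) :=
    (hg.slash_diag 2 p).add ((hg.heckeU 2 p).smul c)
  refine hL.ext (hg.smul _) fun n => ?_
  rw [(hg.slash_diag 2 p).qCoeff_add ((hg.heckeU 2 p).smul c), hg.qCoeff_slash_diag 2 hp0,
    (hg.heckeU 2 p).qCoeff_smul, hg.qCoeff_heckeU 2 hp0, hg.qCoeff_smul]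
  have hbn := hb p hp hpM n
  have hcχ : c * χ (p : ZMod M) = 1 := inv_mul_cancel₀ hχp
  rw [mul_comm n p]
  by_cases hpn : p ∣ n
  · rw [if_pos hpn] at hbn ⊢
    linear_combination c * hbn + (-(p : ℂ) ^ ((2 : ℤ) - 1) * qCoeff (⇑g) (n / p)) * hcχ
  · rw [if_neg hpn] at hbn ⊢
    linear_combination c * hbn

end Fermat.Agent.S48lib.W1
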