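/-
S48lib / W1 / VpLemma  (helper1)

**`M_k(Γ₁(N)) ∩ V_p M_k(Γ₁(N)) = 0`** for `p ∤ N` prime, `k ≠ 0`, in the function-level form:

if `g : ℍ → ℂ` is `Γ₁(N)`-invariant of weight `k ≠ 0`, all its diamond translates have
`q`-expansions, and `g ∣[k] diag(p, 1)` (`= p^{k-1} g(pz)`) is again `Γ₁(N)`-invariant, then `g = 0`.

Proof: (C1) `(⟨u⟩ g) ∣ δ = ⟨u⟩ (g ∣ δ)` (representatives of `u` in `Γ₀(Np)`);
(C2) `g ∣ diag(1, p) = ⟨p⟩ (g ∣ δ)` (an element of `Γ₀(N)` with `p ∣ a`);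
hence `p^{k-2} g = ((⟨p⟩ g) ∣ δ) ∣ δ`, i.e. `a_n(g) = [p² ∣ n] p^k a_{n/p²}(⟨p⟩ g)`; induction on `n`
and `⟨p⟩^{φ(N)} = 1` for the constant term.
-/
import Mathlib
import Fermat.Agent.S48lib.W1.HeckeT

set_option autoImplicit false
set_option linter.unusedSectionVars false

noncomputable section

namespace Fermat.Agent.S48lib.W1

open UpperHalfPlane CongruenceSubgroup Matrix.SpecialLinearGroup ModularForm ModularFormClass
open P2MW.S_ModularForm_heckeT_slash_eq_self_of_mem_Gamma0.ModularForm.HeckeSlashInvariance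
open Fermat.Agent.S16lib.LH
open scoped MatrixGroups ModularForm Manifold

variable {N : ℕ} [NeZero N] {k : ℤ} {p : ℕ} [Fact p.Prime]

/-! ### two existence lemmas in `Γ₀(N)` -/

/-- every unit of `ZMod N` is represented by an element of `Γ₀(N)` whose lower left entry is
divisible by `p`. -/
theorem exists_gamma0Unit_eq_dvd (u : (ZMod N)ˣ) :
    ∃ γ : Gamma0 N, gamma0Unit γ = u ∧ (((γ : SL(2, ℤ)) 1 0 : ℤ) : ZMod p) = 0 := by
  have hp : p ≠ 0 := (Fact.out : p.Prime).ne_zero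
  haveI : NeZero (N * p) := ⟨mul_ne_zero (NeZero.ne N) hp⟩
  obtain ⟨u', hu'⟩ := ZMod.unitsMap_surjective (Dvd.intro p rfl : N ∣ N * p) u
  obtain ⟨γ', hγ'⟩ := exists_gamma0Unit_eq u'
  have hc : (N * p : ℤ) ∣ (γ' : SL(2, ℤ)) 1 0 := by
    have := Gamma0_mem.mp γ'.2
    rw [ZMod.intCast_zmod_eq_zero_iff_dvd] at this
    exact_mod_cast this
  have hmem : (γ' : SL(2, ℤ)) ∈ Gamma0 N :=
    Gamma0_mem.mpr ((ZMod.intCast_zmod_eq_zero_iff_dvd _ _).mpr ((Dvd.intro _ rfl).trans hc))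
  refine ⟨⟨γ', hmem⟩, ?_, (ZMod.intCast_zmod_eq_zero_iff_dvd _ _).mpr ((Dvd.intro_left _ rfl).trans hc)⟩
  ext
  have h1 : (((γ' : SL(2, ℤ)) 1 1 : ℤ) : ZMod (N * p)) = (u' : ZMod (N * p)) := by
    have := congrArg Units.val hγ'
    simpa [Gamma0Map] using this
  have h2 := congrArg (ZMod.castHom (Dvd.intro p rfl : N ∣ N * p) (ZMod N)) h1
  rw [map_intCast] at h2
  rw [← hu', ZMod.unitsMap_def, Units.coe_map]
  simpa [Gamma0Map] using h2

/-- an element of `Γ₀(N)` whose upper left entry is divisible by `p` (`p ∤ N`). -/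
theorem exists_Gamma0_dvd_upperLeft (hpN : ¬ p ∣ N) :
    ∃ γ : Gamma0 N, (((γ : SL(2, ℤ)) 0 0 : ℤ) : ZMod p) = 0 := by
  have hcop : Nat.Coprime p N := coprime_of_not_dvd hpN
  have hco : IsCoprime (p : ℤ) (N : ℤ) := Nat.isCoprime_iff_coprime.mpr hcop
  obtain ⟨a, b, hab⟩ := hco
  let M : Matrix (Fin 2) (Fin 2) ℤ := !![a * p, -b; (N : ℤ), 1]
  have hdet : M.det = 1 := by
    rw [Matrix.det_fin_two_of]
    linear_combination hab
  have hmem : (⟨M, hdet⟩ : SL(2, ℤ)) ∈ Gamma0 N := by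
    refine Gamma0_mem.mpr ?_
    simp [M]
  refine ⟨⟨⟨M, hdet⟩, hmem⟩, ?_⟩
  simp [M]

/-! ### the permutation at the two relevant points -/

theorem tPerm_infty_of_dvd (γ : Gamma0 N) (h : (((γ : SL(2, ℤ)) 1 0 : ℤ) : ZMod p) = 0) :
    tPerm p γ (OnePoint.infty : OnePoint (ZMod p)) = OnePoint.infty := by
  show redMatrix p (γ : SL(2, ℤ)) • (OnePoint.infty : OnePoint (ZMod p)) = _
  rw [OnePoint.smul_infty_eq_ite, if_pos (by simpa using h)]

theorem tPerm_zero_of_dvd (γ : Gamma0 N) (h : (((γ : SL(2, ℤ)) 0 0 : ℤ) : ZMod p) = 0) :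
    tPerm p γ (((0 : ZMod p)) : OnePoint (ZMod p)) = OnePoint.infty := by
  show redMatrix p (γ : SL(2, ℤ)) • (((0 : ZMod p)) : OnePoint (ZMod p)) = _
  rw [OnePoint.smul_some_eq_ite, if_pos (by simpa using h)]

/-! ### (C1) and (C2) -/

variable {g : ℍ → ℂ}

/-- (C1) -/
theorem slash_diag_diamondFun (hpN : ¬ p ∣ N) (hg : IsG1Inv N k g)
    (hδ : IsG1Inv N k (g ∣[k] heckeDiagMatrix p)) (u : (ZMod N)ˣ) :
    (diamondFun k u g) ∣[k] heckeDiagMatrix p = diamondFun k u (g ∣[k] heckeDiagMatrix p) := by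
  obtain ⟨γ, hγu, hγp⟩ := exists_gamma0Unit_eq_dvd (p := p) u
  have hrel := tCoc_rel hpN γ (OnePoint.infty : OnePoint (ZMod p))
  rw [tPerm_infty_of_dvd γ hγp] at hrel
  have hunit : gamma0Unit (tCoc hpN γ (OnePoint.infty : OnePoint (ZMod p))) = u := by
    have h1 := gamma0Map_tCoc hpN γ (OnePoint.infty : OnePoint (ZMod p))
    rw [tPerm_infty_of_dvd γ hγp] at h1
    ext
    rw [← hγu]
    simpa using h1
  rw [hδ.diamondFun_eq' hγu, hg.diamondFun_eq' hunit]
  show _ = (g ∣[k] heckeDiagMatrix p) ∣[k] (mapGL ℝ (γ : SL(2, ℤ)) : GL (Fin 2) ℝ)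
  rw [← SlashAction.slash_mul, show heckeDiagMatrix p = heckeRep p OnePoint.infty from rfl, hrel,
    SlashAction.slash_mul]
  rfl

/-- (C2) -/
theorem slash_heckeMatrix_zero (hpN : ¬ p ∣ N) (hg : IsG1Inv N k g)
    (hδ : IsG1Inv N k (g ∣[k] heckeDiagMatrix p)) :
    g ∣[k] heckeMatrix p 0 =
      diamondFun k (pUnit N p (coprime_of_not_dvd hpN)) (g ∣[k] heckeDiagMatrix p) := by
  obtain ⟨γ, hγ⟩ := exists_Gamma0_dvd_upperLeft (N := N) (p := p) hpN
  have hrel := tCoc_rel hpN γ (((0 : ZMod p)) : OnePoint (ZMod p))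
  rw [tPerm_zero_of_dvd γ hγ] at hrel
  have hunit : gamma0Unit (tCoc hpN γ (((0 : ZMod p)) : OnePoint (ZMod p))) =
      pUnit N p (coprime_of_not_dvd hpN) * gamma0Unit γ := by
    have h1 := gamma0Map_tCoc hpN γ (((0 : ZMod p)) : OnePoint (ZMod p))
    rw [tPerm_zero_of_dvd γ hγ] at h1
    ext
    simpa using h1
  -- `(g ∣ α₀) ∣ γ = (g ∣ c) ∣ δ = ⟨p u⟩ (g ∣ δ) = (⟨p⟩ (g ∣ δ)) ∣ γ`
  have key : (g ∣[k] heckeMatrix p 0) ∣[k] (mapGL ℝ (γ : SL(2, ℤ)) : GL (Fin 2) ℝ) =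
      (diamondFun k (pUnit N p (coprime_of_not_dvd hpN)) (g ∣[k] heckeDiagMatrix p)) ∣[k]
        (mapGL ℝ (γ : SL(2, ℤ)) : GL (Fin 2) ℝ) := by
    have h0 : heckeMatrix p 0 = heckeRep p (((0 : ZMod p)) : OnePoint (ZMod p)) := by
      show _ = heckeMatrix p (0 : ZMod p).val
      rw [ZMod.val_zero]
    rw [← SlashAction.slash_mul, h0, hrel, SlashAction.slash_mul]
    have h2 : g ∣[k] (mapGL ℝ ((tCoc hpN γ (((0 : ZMod p)) : OnePoint (ZMod p)) : Gamma0 N) :
        SL(2, ℤ)) : GL (Fin 2) ℝ) =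
        diamondFun k (pUnit N p (coprime_of_not_dvd hpN) * gamma0Unit γ) g :=
      (hg.diamondFun_eq' hunit).symm
    rw [h2]
    show (diamondFun k _ g) ∣[k] heckeDiagMatrix p = _
    rw [slash_diag_diamondFun hpN hg hδ, hδ.diamondFun_mul]
    exact (hδ.isG1Inv_diamondFun _).diamondFun_eq γ
  have := congrArg (fun F => F ∣[k] (mapGL ℝ (γ : SL(2, ℤ)) : GL (Fin 2) ℝ)⁻¹) key
  simpa [← SlashAction.slash_mul] using this

/-- `(G ∣ diag(1, p)) ∣ diag(p, 1) = p^{k-2} G`. -/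
theorem slash_heckeMatrix_zero_slash_diag (G : ℍ → ℂ) :
    (G ∣[k] heckeMatrix p 0) ∣[k] heckeDiagMatrix p = ((p : ℂ) ^ (k - 2)) • G := by
  have hp : p ≠ 0 := (Fact.out : p.Prime).ne_zero
  have hp' : (p : ℂ) ≠ 0 := by exact_mod_cast hp
  ext τ
  rw [slash_heckeDiagMatrix_apply k hp, slash_heckeMatrix_apply k hp]
  have hτ : heckeMatrix p 0 • (heckeDiagMatrix p • τ) = τ := by
    ext
    rw [coe_heckeMatrix_smul hp, coe_heckeDiagMatrix_smul hp]
    simp [hp']
  rw [hτ, Pi.smul_apply, smul_eq_mul, ← mul_assoc]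
  congr 1
  rw [show k - 2 = (k - 1) + (-1) by ring, zpow_add₀ hp', zpow_neg_one]

/-! ### the lemma -/

/-- **`V_p`-lemma.** -/
theorem eq_zero_of_isG1Inv_slash_diag (hk : k ≠ 0) (hpN : ¬ p ∣ N) (hg : IsG1Inv N k g)
    (hq : ∀ u : (ZMod N)ˣ, IsQExp (diamondFun k u g))
    (hδ : IsG1Inv N k (g ∣[k] heckeDiagMatrix p)) : g = 0 := by
  have hp : p ≠ 0 := (Fact.out : p.Prime).ne_zero
  have hp2 : 2 ≤ p := (Fact.out : p.Prime).two_le
  have hp' : (p : ℂ) ≠ 0 := by exact_mod_cast hp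
  set P := pUnit N p (coprime_of_not_dvd hpN) with hP
  -- the relation for every diamond translate
  have hrel : ∀ u : (ZMod N)ˣ, ∀ n : ℕ, qCoeff (diamondFun k u g) n =
      if p ∣ n then (if p ∣ n / p then (p : ℂ) ^ k * qCoeff (diamondFun k (u * P) g) (n / p / p)
        else 0) else 0 := by
    intro u n
    have hgu := hg.isG1Inv_diamondFun u
    have hδu : IsG1Inv N k ((diamondFun k u g) ∣[k] heckeDiagMatrix p) := by
      rw [slash_diag_diamondFun hpN hg hδ]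
      exact hδ.isG1Inv_diamondFun u
    have h1 := slash_heckeMatrix_zero hpN hgu hδu
    rw [← slash_diag_diamondFun hpN hgu hδu, ← hg.diamondFun_mul] at h1
    have h2 := congrArg (fun F => F ∣[k] heckeDiagMatrix p) h1
    simp only [slash_heckeMatrix_zero_slash_diag] at h2
    have h3 : qCoeff (((p : ℂ) ^ (k - 2)) • diamondFun k u g) n =
        qCoeff (((diamondFun k (u * P) g) ∣[k] heckeDiagMatrix p) ∣[k] heckeDiagMatrix p) n :=
      congrArg (fun F => qCoeff F n) h2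
    rw [(hq u).qCoeff_smul, ((hq (u * P)).slash_diag k p).qCoeff_slash_diag k hp] at h3
    have h4 : qCoeff (diamondFun k u g) n = ((p : ℂ) ^ (k - 2))⁻¹ *
        (if p ∣ n then (p : ℂ) ^ (k - 1) *
          qCoeff ((diamondFun k (u * P) g) ∣[k] heckeDiagMatrix p) (n / p) else 0) := by
      rw [← h3, ← mul_assoc, inv_mul_cancel₀ (zpow_ne_zero _ hp'), one_mul]
    rw [h4, (hq (u * P)).qCoeff_slash_diag k hp]
    by_cases h5 : p ∣ n
    · rw [if_pos h5, if_pos h5]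
      by_cases h6 : p ∣ n / p
      · rw [if_pos h6, if_pos h6, ← mul_assoc, ← mul_assoc]
        congr 1
        rw [← zpow_neg, ← zpow_add₀ hp', ← zpow_add₀ hp']
        congr 1
        ring
      · rw [if_neg h6, if_neg h6, mul_zero, mul_zero]
    · rw [if_neg h5, if_neg h5, mul_zero]
  -- positive indices
  have hpos : ∀ n : ℕ, 0 < n → ∀ u : (ZMod N)ˣ, qCoeff (diamondFun k u g) n = 0 := by
    intro n
    induction n using Nat.strong_induction_on with
    | _ n ih =>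
      intro hn u
      rw [hrel u n]
      by_cases h5 : p ∣ n
      · rw [if_pos h5]
        by_cases h6 : p ∣ n / p
        · rw [if_pos h6]
          have h7 : 0 < n / p / p := by
            apply Nat.div_pos (Nat.le_of_dvd _ h6) (by omega)
            exact Nat.div_pos (Nat.le_of_dvd hn h5) (by omega)
          have h8 : n / p / p < n := by
            calc n / p / p ≤ n / p := Nat.div_le_self _ _
              _ < n := Nat.div_lt_self hn hp2
          rw [ih _ h8 h7, mul_zero]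
        · rw [if_neg h6]
      · rw [if_neg h5]
  -- the constant term
  have hzero : ∀ (i : ℕ) (u : (ZMod N)ˣ), qCoeff (diamondFun k u g) 0 =
      ((p : ℂ) ^ k) ^ i * qCoeff (diamondFun k (u * P ^ i) g) 0 := by
    intro i
    induction i with
    | zero => intro u; simp
    | succ i ih =>
      intro u
      have h0 := hrel u 0
      simp only [dvd_zero, if_true, Nat.zero_div] at h0
      rw [h0, ih (u * P), mul_assoc u, ← pow_succ' P i, pow_succ ((p : ℂ) ^ k)]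
      ring
  have hconst : qCoeff g 0 = 0 := by
    have h1 := hzero (Nat.totient N) 1
    have hP1 : P ^ Nat.totient N = 1 := ZMod.pow_totient P
    rw [hP1, mul_one, hg.diamondFun_one] at h1
    have hne : ((p : ℂ) ^ k) ^ (Nat.totient N) ≠ 1 := by
      intro h
      have hnorm := congrArg norm h
      rw [norm_pow, norm_zpow, norm_one, Complex.norm_natCast] at hnorm
      have hφ : Nat.totient N ≠ 0 := (Nat.totient_pos.mpr (Nat.pos_of_ne_zero (NeZero.ne N))).ne'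
      have h2 : ((p : ℝ) ^ k) = 1 :=
        (pow_eq_one_iff_of_nonneg (zpow_nonneg (Nat.cast_nonneg p) k) hφ).mp hnorm
      have hp1 : (1 : ℝ) < p := by exact_mod_cast hp2
      rcases lt_or_gt_of_ne hk with hk' | hk'
      · have := zpow_lt_one_of_neg₀ hp1 hk'
        linarith
      · have := one_lt_zpow₀ hp1 hk'
        linarith
    by_contra hne0
    apply hne
    have : (1 - ((p : ℂ) ^ k) ^ (Nat.totient N)) * qCoeff g 0 = 0 := by
      rw [sub_mul, one_mul, ← h1, sub_self]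
    rcases mul_eq_zero.mp this with h | h
    · exact (sub_eq_zero.mp h).symm
    · exact absurd h hne0
  have hg1 : IsQExp g := by
    have := hq 1
    rwa [hg.diamondFun_one] at this
  refine hg1.eq_zero_of_qCoeff fun n => ?_
  rcases Nat.eq_zero_or_pos n with rfl | hn
  · exact hconst
  · have := hpos n hn 1
    rwa [hg.diamondFun_one] at this

end Fermat.Agent.S48lib.W1
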