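/-
S48lib / W1 / Neb  (helper1)

**(I1) of the S48 plan.**  A weight-`k` cusp form `f` on `Γ₁(N)` (`k ≠ 0`) whose `q`-coefficients
satisfy the Hecke relations `a_{pn} + ε(p) p^{k-1} [p ∣ n] a_{n/p} = a_p a_n` for all primes `p ∤ N`
(no normalisation needed beyond `f ≠ 0` for the parity) has nebentypus `ε`:

  `⟨u⟩ f = ε(u) f` for all `u ∈ (ℤ/N)ˣ`,  i.e. `f ∣[k] γ = ε(d_γ) f` for `γ ∈ Γ₀(N)`,

and `ε(-1) = (-1)^k`.  Specialised to `k = 1` in the shape of the frozen statement S48.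
-/
import Mathlib
import Fermat.Agent.S48lib.W1.VpLemma

set_option autoImplicit false
set_option linter.unusedSectionVars false

noncomputable section

namespace Fermat.Agent.S48lib.W1

open UpperHalfPlane CongruenceSubgroup Matrix.SpecialLinearGroup ModularForm ModularFormClass
open scoped MatrixGroups ModularForm Manifold

variable {N : ℕ} [NeZero N] {k : ℤ}

local notation "S[" N "," k "]" => CuspForm (Gamma1 N : Subgroup (GL (Fin 2) ℝ)) k

/-- the prime case -/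
theorem diamond_pUnit_eq (hk : k ≠ 0) (f : S[N, k]) {p : ℕ} (hp : p.Prime) (hpN : ¬ p ∣ N) (e : ℂ)
    (hT : ∀ n : ℕ, qCoeff f (p * n) +
      e * (if p ∣ n then (p : ℂ) ^ (k - 1) * qCoeff f (n / p) else 0) = qCoeff f p * qCoeff f n) :
    haveI : Fact p.Prime := ⟨hp⟩
    diamond k (pUnit N p (coprime_of_not_dvd hpN)) f = e • f := by
  haveI : Fact p.Prime := ⟨hp⟩
  have hp0 : p ≠ 0 := hp.ne_zero
  set P := pUnit N p (coprime_of_not_dvd hpN) with hP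
  set g : S[N, k] := diamond k P f - e • f with hg
  set F : S[N, k] := heckeT1 k hp hpN f - (qCoeff f p) • f with hF
  have hgq : IsQExp (g : ℍ → ℂ) := isQExp_of_cuspForm g
  have hFq : IsQExp (F : ℍ → ℂ) := isQExp_of_cuspForm F
  have hfq : IsQExp (f : ℍ → ℂ) := isQExp_of_cuspForm f
  have hdq : IsQExp (diamond k P f : ℍ → ℂ) := isQExp_of_cuspForm _
  have hTq : IsQExp (heckeT1 k hp hpN f : ℍ → ℂ) := isQExp_of_cuspForm _
  -- `F = g ∣ δ`
  have hFg : (F : ℍ → ℂ) = (g : ℍ → ℂ) ∣[k] heckeDiagMatrix p := by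
    refine hFq.ext (hgq.slash_diag k p) fun n => ?_
    rw [hgq.qCoeff_slash_diag k hp0]
    have h1 : (F : ℍ → ℂ) = ⇑(heckeT1 k hp hpN f) - (qCoeff f p) • ⇑f := rfl
    have h2 : (g : ℍ → ℂ) = ⇑(diamond k P f) - e • ⇑f := rfl
    rw [h1, h2, hTq.qCoeff_sub (hfq.smul _), hfq.qCoeff_smul, qCoeff_heckeT1 hp hpN f n,
      hdq.qCoeff_sub (hfq.smul _), hfq.qCoeff_smul]
    have h3 := hT n
    rw [mul_comm p n] at h3
    by_cases hpn : p ∣ n
    · rw [if_pos hpn] at h3 ⊢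
      rw [if_pos hpn]
      linear_combination h3
    · rw [if_neg hpn] at h3 ⊢
      rw [if_neg hpn]
      linear_combination h3
  have hδ : IsG1Inv N k ((g : ℍ → ℂ) ∣[k] heckeDiagMatrix p) := by
    rw [← hFg]
    exact isG1Inv_of_slashInvariantFormClass F
  have hg0 : (g : ℍ → ℂ) = 0 :=
    eq_zero_of_isG1Inv_slash_diag hk hpN (isG1Inv_of_slashInvariantFormClass g)
      (fun u => by rw [← coe_diamond]; exact isQExp_of_cuspForm _) hδ
  have hg0' : g = 0 := DFunLike.coe_injective hg0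
  rw [hg] at hg0'
  exact sub_eq_zero.mp hg0'

/-- **(I1), general weight.** -/
theorem diamond_eq_smul_of_hecke (hk : k ≠ 0) (ε : DirichletCharacter ℂ N) (f : S[N, k])
    (hT : ∀ p : ℕ, p.Prime → ¬ p ∣ N → ∀ n : ℕ, qCoeff f (p * n) +
      ε (p : ZMod N) * (if p ∣ n then (p : ℂ) ^ (k - 1) * qCoeff f (n / p) else 0) =
        qCoeff f p * qCoeff f n)
    (u : (ZMod N)ˣ) : diamond k u f = ε (u : ZMod N) • f := by
  obtain ⟨p, hpgt, hp, hpu⟩ := Nat.forall_exists_prime_gt_and_eq_mod u.isUnit N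
  have hpN : ¬ p ∣ N := fun h =>
    absurd (Nat.le_of_dvd (Nat.pos_of_ne_zero (NeZero.ne N)) h) (not_le.mpr hpgt)
  haveI : Fact p.Prime := ⟨hp⟩
  have h1 := diamond_pUnit_eq hk f hp hpN (ε (p : ZMod N)) (hT p hp hpN)
  have h2 : pUnit N p (coprime_of_not_dvd hpN) = u := by
    ext
    rw [coe_pUnit, hpu]
  rw [h2, hpu] at h1
  exact h1

/-- **(I1), slash form**: `f ∣[k] γ = ε(d_γ) f` for `γ ∈ Γ₀(N)`. -/
theorem slash_eq_smul_of_hecke (hk : k ≠ 0) (ε : DirichletCharacter ℂ N) (f : S[N, k])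
    (hT : ∀ p : ℕ, p.Prime → ¬ p ∣ N → ∀ n : ℕ, qCoeff f (p * n) +
      ε (p : ZMod N) * (if p ∣ n then (p : ℂ) ^ (k - 1) * qCoeff f (n / p) else 0) =
        qCoeff f p * qCoeff f n)
    (γ : SL(2, ℤ)) (hγ : γ ∈ Gamma0 N) :
    (f : ℍ → ℂ) ∣[k] γ = ε ((γ 1 1 : ℤ) : ZMod N) • (f : ℍ → ℂ) := by
  have h := diamond_eq_smul_of_hecke hk ε f hT (gamma0Unit ⟨γ, hγ⟩)
  have h2 : (⇑(diamond k (gamma0Unit ⟨γ, hγ⟩) f) : ℍ → ℂ) =
      ε ((gamma0Unit (⟨γ, hγ⟩ : Gamma0 N) : (ZMod N)ˣ) : ZMod N) • (f : ℍ → ℂ) := by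
    rw [h]; rfl
  rw [coe_diamond_eq_slash] at h2
  exact h2

/-- the parity of the nebentypus -/
theorem eps_neg_one_of_hecke (hk : k ≠ 0) (ε : DirichletCharacter ℂ N) (f : S[N, k]) (hf : f ≠ 0)
    (hT : ∀ p : ℕ, p.Prime → ¬ p ∣ N → ∀ n : ℕ, qCoeff f (p * n) +
      ε (p : ZMod N) * (if p ∣ n then (p : ℂ) ^ (k - 1) * qCoeff f (n / p) else 0) =
        qCoeff f p * qCoeff f n) :
    ε (-1) = (-1 : ℂ) ^ k := by
  have h := diamond_eq_smul_of_hecke hk ε f hT (-1)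
  have h2 : (⇑(diamond k (-1 : (ZMod N)ˣ) f) : ℍ → ℂ) =
      ε (((-1 : (ZMod N)ˣ) : (ZMod N)ˣ) : ZMod N) • (f : ℍ → ℂ) := by
    rw [h]; rfl
  rw [coe_diamond, (isG1Inv_of_slashInvariantFormClass f).diamondFun_neg_one] at h2
  obtain ⟨τ, hτ⟩ : ∃ τ, f τ ≠ 0 := by
    by_contra hcon
    exact hf (CuspForm.ext fun τ => by
      by_contra hτ
      exact hcon ⟨τ, hτ⟩)
  have h3 := congrFun h2 τ
  simp only [Units.val_neg, Units.val_one] at h3
  have h4 : ((-1 : ℂ) ^ k) * f τ = ε (-1) * f τ := h3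
  exact (mul_right_cancel₀ hτ h4).symm

/-! ### weight one, in the shape of S48 -/

/-- **(I1) for S48**: the hypotheses of the frozen statement give the nebentypus relation and the
parity `ε(-1) = -1`. -/
theorem nebentypus_weight_one (ε : DirichletCharacter ℂ N) (f : S[N, 1])
    (hf₁ : qCoeff f 1 = 1)
    (hT : ∀ p : ℕ, p.Prime → ¬ p ∣ N → ∀ n : ℕ,
      qCoeff f (p * n) + ε (p : ZMod N) * (if p ∣ n then qCoeff f (n / p) else 0) =
        qCoeff f p * qCoeff f n) :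
    (∀ γ : SL(2, ℤ), γ ∈ Gamma0 N →
        (f : ℍ → ℂ) ∣[(1 : ℤ)] γ = ε ((γ 1 1 : ℤ) : ZMod N) • (f : ℍ → ℂ)) ∧
      (∀ u : (ZMod N)ˣ, diamond 1 u f = ε (u : ZMod N) • f) ∧ ε (-1) = -1 := by
  have hT' : ∀ p : ℕ, p.Prime → ¬ p ∣ N → ∀ n : ℕ, qCoeff f (p * n) +
      ε (p : ZMod N) * (if p ∣ n then (p : ℂ) ^ ((1 : ℤ) - 1) * qCoeff f (n / p) else 0) =
        qCoeff f p * qCoeff f n := by
    intro p hp hpN n
    simpa using hT p hp hpN n
  have hf : f ≠ 0 := by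
    rintro rfl
    have h0 : qCoeff ((0 : S[N, 1]) : ℍ → ℂ) 1 = 0 := by
      have : ((0 : S[N, 1]) : ℍ → ℂ) = 0 := rfl
      rw [this]
      unfold qCoeff
      rw [qExpansion_zero, map_zero]
    rw [h0] at hf₁
    exact zero_ne_one hf₁
  refine ⟨slash_eq_smul_of_hecke one_ne_zero ε f hT', diamond_eq_smul_of_hecke one_ne_zero ε f hT',
    ?_⟩
  have := eps_neg_one_of_hecke one_ne_zero ε f hf hT'
  simpa using this

end Fermat.Agent.S48lib.W1
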