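/-
S48lib / W1 / HeckeU  (helper1)

The Hecke operator `U_p` (`p ∣ N`) on `Γ₁(N)`-invariant functions and on
`CuspForm (Gamma1 N) k`.

* `IsG1Inv.heckeU_slash` : for `γ ∈ Γ₀(N)`, `(U_p f) ∣ γ = U_p (f ∣ γ)` (coset bookkeeping of
  `S16lib/LH/Cosets`, section `U`);
* `heckeUd k hdN : CuspForm (Gamma1 N) k →ₗ[ℂ] CuspForm (Gamma1 N) k` for any divisor `d ∣ N`;
  `heckeU1 k hp hpN` the same with a (redundant) primality argument, parallel to `heckeT1`;
* `coe_heckeU1`, `qCoeff_heckeU1 : a_n(U_p f) = a_{np}(f)`;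
* `diamond_heckeU1`, `heckeU1_comm`, `heckeU1_heckeT1_comm`.
-/
import Mathlib
import Fermat.Agent.S48lib.W1.HeckeT

set_option autoImplicit false
set_option linter.unusedSectionVars false

noncomputable section

namespace Fermat.Agent.S48lib.W1

open UpperHalfPlane CongruenceSubgroup Matrix.SpecialLinearGroup ModularForm ModularFormClass
open P2MW.S_ModularForm_heckeT_slash_eq_self_of_mem_Gamma0.ModularForm.HeckeSlashInvariance
open Fermat.Agent.S16lib.LH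
open scoped MatrixGroups ModularForm Manifold

variable {N : ℕ} [NeZero N] {k : ℤ}

section Fun

variable {p : ℕ} [NeZero p]

/-- the cocycle of `U_p` has the same diamond class as `γ`. -/
theorem gamma0Unit_uCoc (hpN : p ∣ N) (γ : Gamma0 N) (x : ZMod p) :
    gamma0Unit (uCoc hpN γ x) = gamma0Unit γ := by
  ext
  simp only [coe_gamma0Unit]
  exact gamma0Map_uCoc hpN γ x

/-- **`U_p` commutes with the slash by `Γ₀(N)`** on `Γ₁(N)`-invariant functions (`p ∣ N`). -/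
theorem IsG1Inv.heckeU_slash {f : ℍ → ℂ} (hf : IsG1Inv N k f) (hpN : p ∣ N) (γ : Gamma0 N) :
    (ModularForm.heckeU k p f) ∣[k] (γ : SL(2, ℤ)) =
      ModularForm.heckeU k p (f ∣[k] (γ : SL(2, ℤ))) := by
  rw [heckeU_eq_sum_zmod, heckeU_eq_sum_zmod]
  show (∑ x : ZMod p, f ∣[k] heckeMatrix p x.val) ∣[k]
    (mapGL ℝ (γ : SL(2, ℤ)) : GL (Fin 2) ℝ) = _
  rw [SlashAction.sum_slash]
  rw [← Equiv.sum_comp (uPerm hpN γ)
    (fun x => (f ∣[k] (γ : SL(2, ℤ))) ∣[k] heckeMatrix p x.val)]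
  refine Finset.sum_congr rfl fun x _ => ?_
  rw [← SlashAction.slash_mul, uCoc_rel hpN γ x, SlashAction.slash_mul]
  congr 1
  show f ∣[k] ((uCoc hpN γ x : Gamma0 N) : SL(2, ℤ)) = _
  rw [← hf.diamondFun_eq (uCoc hpN γ x), gamma0Unit_uCoc, hf.diamondFun_eq γ]

theorem IsG1Inv.isG1Inv_heckeU {f : ℍ → ℂ} (hf : IsG1Inv N k f) (hpN : p ∣ N) :
    IsG1Inv N k (ModularForm.heckeU k p f) := by
  intro γ hγ
  have h0 : γ ∈ Gamma0 N := Gamma1_in_Gamma0 N hγ
  have := hf.heckeU_slash hpN ⟨γ, h0⟩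
  rw [show f ∣[k] ((⟨γ, h0⟩ : Gamma0 N) : SL(2, ℤ)) = f from hf γ hγ] at this
  exact this

/-- `U_p` commutes with the diamond operators. -/
theorem IsG1Inv.heckeU_diamondFun {f : ℍ → ℂ} (hf : IsG1Inv N k f) (hpN : p ∣ N)
    (u : (ZMod N)ˣ) :
    diamondFun k u (ModularForm.heckeU k p f) = ModularForm.heckeU k p (diamondFun k u f) :=
  hf.heckeU_slash hpN (unitRep u)

end Fun

/-! ### bundled version -/

theorem ne_zero_of_dvd_level {d : ℕ} (hdN : d ∣ N) : d ≠ 0 :=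
  fun h => NeZero.ne N (Nat.eq_zero_of_zero_dvd (h ▸ hdN))

/-- the operator `U_d`, `d ∣ N`, on `CuspForm (Gamma1 N) k`. -/
def heckeUd (k : ℤ) {d : ℕ} (hdN : d ∣ N) :
    CuspForm (Gamma1 N : Subgroup (GL (Fin 2) ℝ)) k →ₗ[ℂ]
      CuspForm (Gamma1 N : Subgroup (GL (Fin 2) ℝ)) k :=
  haveI : NeZero d := ⟨ne_zero_of_dvd_level hdN⟩
  { toFun := fun f =>
      { toFun := ModularForm.heckeU k d ⇑f
        slash_action_eq' := fun A hA => by
          obtain ⟨γ₁, hγ₁, rfl⟩ := hA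
          exact (isG1Inv_of_slashInvariantFormClass f).isG1Inv_heckeU hdN γ₁ hγ₁
        holo' := ((isQExp_of_cuspForm f).heckeU k d).hol
        zero_at_cusps' := fun hc => CuspFormClass.isZeroAt_heckeU f d hc }
    map_add' := fun f g => DFunLike.coe_injective <| by
      show ModularForm.heckeU k d ⇑(f + g) = ModularForm.heckeU k d ⇑f + ModularForm.heckeU k d ⇑g
      rw [FunLike.coe_add, heckeU_add]
    map_smul' := fun c f => DFunLike.coe_injective <| by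
      show ModularForm.heckeU k d ⇑(c • f) = c • ModularForm.heckeU k d ⇑f
      rw [FunLike.coe_smul, heckeU_smul] }

@[simp] theorem coe_heckeUd {d : ℕ} (hdN : d ∣ N)
    (f : CuspForm (Gamma1 N : Subgroup (GL (Fin 2) ℝ)) k) :
    ⇑(heckeUd k hdN f) = ModularForm.heckeU k d ⇑f := rfl

/-- **`q`-expansion of `U_d f`**: `a_n(U_d f) = a_{nd}(f)`. -/
theorem qCoeff_heckeUd {d : ℕ} (hdN : d ∣ N)
    (f : CuspForm (Gamma1 N : Subgroup (GL (Fin 2) ℝ)) k) (n : ℕ) :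
    qCoeff (heckeUd k hdN f) n = qCoeff f (n * d) := by
  rw [coe_heckeUd]
  exact (isQExp_of_cuspForm f).qCoeff_heckeU k (ne_zero_of_dvd_level hdN) n

/-- `U_d` commutes with the diamond operators. -/
theorem diamond_heckeUd {d : ℕ} (hdN : d ∣ N) (u : (ZMod N)ˣ)
    (f : CuspForm (Gamma1 N : Subgroup (GL (Fin 2) ℝ)) k) :
    diamond k u (heckeUd k hdN f) = heckeUd k hdN (diamond k u f) :=
  have : NeZero d := ⟨ne_zero_of_dvd_level hdN⟩
  DFunLike.coe_injective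
    ((isG1Inv_of_slashInvariantFormClass f).heckeU_diamondFun hdN u)

/-- the operators `U_d`, `U_e` commute. -/
theorem heckeUd_comm {d e : ℕ} (hdN : d ∣ N) (heN : e ∣ N)
    (f : CuspForm (Gamma1 N : Subgroup (GL (Fin 2) ℝ)) k) :
    heckeUd k hdN (heckeUd k heN f) = heckeUd k heN (heckeUd k hdN f) := by
  apply DFunLike.coe_injective
  refine (isQExp_of_cuspForm _).ext (isQExp_of_cuspForm _) fun n => ?_
  rw [qCoeff_heckeUd, qCoeff_heckeUd, qCoeff_heckeUd, qCoeff_heckeUd]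
  congr 1
  ring

/-- `U_d` (`d ∣ N`) and `T_p` (`p ∤ N`) commute. -/
theorem heckeUd_heckeT1_comm {d p : ℕ} (hdN : d ∣ N) (hp : p.Prime) (hpN : ¬ p ∣ N)
    (f : CuspForm (Gamma1 N : Subgroup (GL (Fin 2) ℝ)) k) :
    heckeUd k hdN (heckeT1 k hp hpN f) = heckeT1 k hp hpN (heckeUd k hdN f) := by
  have hpd : ¬ p ∣ d := fun h => hpN (h.trans hdN)
  apply DFunLike.coe_injective
  refine (isQExp_of_cuspForm _).ext (isQExp_of_cuspForm _) fun n => ?_
  rw [qCoeff_heckeUd, qCoeff_heckeT1 hp hpN, qCoeff_heckeT1 hp hpN, qCoeff_heckeUd,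
    diamond_heckeUd]
  have h1 : (p ∣ n * d) ↔ p ∣ n := by
    rw [hp.dvd_mul]; tauto
  congr 1
  · congr 1; ring
  · by_cases hpn : p ∣ n
    · rw [if_pos hpn, if_pos (h1.mpr hpn), qCoeff_heckeUd]
      obtain ⟨m, rfl⟩ := hpn
      rw [Nat.mul_div_cancel_left _ hp.pos, show p * m * d = p * (m * d) by ring,
        Nat.mul_div_cancel_left _ hp.pos]
    · rw [if_neg hpn, if_neg (h1.not.mpr hpn)]

/-! ### the prime case, with the signature parallel to `heckeT1` -/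

/-- the Hecke operator `U_p`, `p ∣ N` prime, on `CuspForm (Gamma1 N) k`. -/
def heckeU1 (k : ℤ) {p : ℕ} (_hp : p.Prime) (hpN : p ∣ N) :
    CuspForm (Gamma1 N : Subgroup (GL (Fin 2) ℝ)) k →ₗ[ℂ]
      CuspForm (Gamma1 N : Subgroup (GL (Fin 2) ℝ)) k :=
  heckeUd k hpN

@[simp] theorem coe_heckeU1 {p : ℕ} (hp : p.Prime) (hpN : p ∣ N)
    (f : CuspForm (Gamma1 N : Subgroup (GL (Fin 2) ℝ)) k) :
    ⇑(heckeU1 k hp hpN f) = ModularForm.heckeU k p ⇑f := rfl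

/-- **`q`-expansion of `U_p f`**: `a_n(U_p f) = a_{np}(f)`. -/
theorem qCoeff_heckeU1 {p : ℕ} (hp : p.Prime) (hpN : p ∣ N)
    (f : CuspForm (Gamma1 N : Subgroup (GL (Fin 2) ℝ)) k) (n : ℕ) :
    qCoeff (heckeU1 k hp hpN f) n = qCoeff f (n * p) :=
  qCoeff_heckeUd hpN f n

/-- `U_p` commutes with the diamond operators. -/
theorem diamond_heckeU1 {p : ℕ} (hp : p.Prime) (hpN : p ∣ N) (u : (ZMod N)ˣ)
    (f : CuspForm (Gamma1 N : Subgroup (GL (Fin 2) ℝ)) k) :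
    diamond k u (heckeU1 k hp hpN f) = heckeU1 k hp hpN (diamond k u f) :=
  diamond_heckeUd hpN u f

/-- the operators `U_p`, `U_q` commute. -/
theorem heckeU1_comm {p q : ℕ} (hp : p.Prime) (hpN : p ∣ N) (hq : q.Prime) (hqN : q ∣ N)
    (f : CuspForm (Gamma1 N : Subgroup (GL (Fin 2) ℝ)) k) :
    heckeU1 k hp hpN (heckeU1 k hq hqN f) = heckeU1 k hq hqN (heckeU1 k hp hpN f) :=
  heckeUd_comm hpN hqN f

/-- `U_p` (`p ∣ N`) and `T_q` (`q ∤ N`) commute. -/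
theorem heckeU1_heckeT1_comm {p q : ℕ} (hp : p.Prime) (hpN : p ∣ N) (hq : q.Prime)
    (hqN : ¬ q ∣ N) (f : CuspForm (Gamma1 N : Subgroup (GL (Fin 2) ℝ)) k) :
    heckeU1 k hp hpN (heckeT1 k hq hqN f) = heckeT1 k hq hqN (heckeU1 k hp hpN f) :=
  heckeUd_heckeT1_comm hpN hq hqN f

end Fermat.Agent.S48lib.W1
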